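import Fermat.Agent.Petersson.Inner
import Fermat.Agent.Hecke.Duality

/-!
# The trivial bound on Hecke eigenvalues in weight two is strict

For a non-zero weight two cusp form the function `‖f τ‖ · Im τ` attains its supremum.  If
`∑ w i • (f ∣[2] g i) = a • f` with `‖w i‖ ≤ 1`, evaluating at a maximum gives
`‖a‖ ≤ #ι`, and equality forces every `g i` to send maxima to maxima; this is impossible when one
of the `g i` multiplies `Im τ` by a factor `> 1`, since the function tends to zero at `i∞`.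

In particular `‖a_ℓ‖ < ℓ + 1` for normalised eigenforms on `Γ₀(N)` and `ℓ ∤ N`.
-/

set_option autoImplicit false

noncomputable section

open UpperHalfPlane ModularGroup Filter Topology Matrix.SpecialLinearGroup
open scoped MatrixGroups ModularForm Modular Pointwise

namespace Fermat.Agent.EigenBound

open Fermat.Agent.Petersson

/-- The invariant absolute value of a weight two form. -/
def hnorm (f : ℍ → ℂ) (τ : ℍ) : ℝ := ‖f τ‖ * τ.im

theorem hnorm_nonneg (f : ℍ → ℂ) (τ : ℍ) : 0 ≤ hnorm f τ :=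
  mul_nonneg (norm_nonneg _) τ.im_pos.le

theorem norm_petersson_self (f : ℍ → ℂ) (τ : ℍ) : ‖petersson 2 f f τ‖ = hnorm f τ ^ 2 := by
  rw [norm_petersson, hnorm, pow_two]

theorem hnorm_slash {g : GL (Fin 2) ℝ} (hg : 0 < g.det.val) (f : ℍ → ℂ) (τ : ℍ) :
    hnorm (f ∣[(2 : ℤ)] g) τ = hnorm f (g • τ) := by
  refine (pow_left_inj₀ (hnorm_nonneg _ _) (hnorm_nonneg _ _) two_ne_zero).1 ?_
  rw [← norm_petersson_self, ← norm_petersson_self, petersson_slash_two hg]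

variable {Γ : Subgroup (GL (Fin 2) ℝ)} [Γ.IsArithmetic]

theorem hnorm_smul (f : CuspForm Γ 2) {γ : GL (Fin 2) ℝ} (hγ : γ ∈ Γ) (τ : ℍ) :
    hnorm f (γ • τ) = hnorm f τ := by
  refine (pow_left_inj₀ (hnorm_nonneg _ _) (hnorm_nonneg _ _) two_ne_zero).1 ?_
  rw [← norm_petersson_self, ← norm_petersson_self]
  exact SlashInvariantFormClass.norm_petersson_smul hγ

open ConjAct in
theorem tendsto_hnorm_smul (f : CuspForm Γ 2) (g : SL(2, ℤ)) :
    Tendsto (fun τ => hnorm f (g • τ)) atImInfty (𝓝 0) := by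
  have : ((toConjAct (g : GL (Fin 2) ℝ)⁻¹) • Γ).IsArithmetic := by
    simpa [(show Rat.castHom ℝ = algebraMap ℚ ℝ by rfl), map_inv, map_mapGL]
      using! Subgroup.IsArithmetic.conj Γ (mapGL ℚ g)⁻¹
  have h : IsZeroAtImInfty fun τ => petersson 2 ⇑f ⇑f (g • τ) := by
    simp_rw [← UpperHalfPlane.petersson_slash_SL]
    exact (CuspFormClass.zero_at_infty <| CuspForm.translate f g).petersson_isZeroAtImInfty_left
      2 _ (CuspForm.translate f g)
  have h' := tendsto_zero_iff_norm_tendsto_zero.1 h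
  have e : (fun τ => hnorm f (g • τ)) = fun τ => Real.sqrt ‖petersson 2 ⇑f ⇑f (g • τ)‖ := by
    funext τ
    rw [norm_petersson_self, Real.sqrt_sq (hnorm_nonneg _ _)]
  rw [e]
  simpa [Real.sqrt_zero] using h'.sqrt

/-- `‖f τ‖ · Im τ` attains its supremum, which is positive, for a non-zero cusp form. -/
theorem exists_hnorm_max (f : CuspForm Γ 2) (hf : f ≠ 0) :
    ∃ τ₀ : ℍ, 0 < hnorm f τ₀ ∧ ∀ τ, hnorm f τ ≤ hnorm f τ₀ := by
  obtain ⟨τ₁, hτ₁⟩ : ∃ τ, f τ ≠ 0 := by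
    by_contra h
    push Not at h
    exact hf (DFunLike.ext _ _ h)
  set M := hnorm f τ₁ with hM
  have hMpos : 0 < M := mul_pos (norm_pos_iff.2 hτ₁) τ₁.im_pos
  set Γ' : Subgroup SL(2, ℤ) := Γ.comap (mapGL ℝ)
  -- every point is, up to `Γ`, one of finitely many translates of a point of the closed domain
  have hcover : ∀ τ : ℍ, ∃ (q : SL(2, ℤ) ⧸ Γ') (σ : ℍ),
      σ ∈ 𝒟 ∧ hnorm f τ = hnorm f (q.out⁻¹ • σ) := by
    intro τ
    obtain ⟨g, hg⟩ := exists_smul_mem_fd τ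
    obtain ⟨γ, hγ⟩ := QuotientGroup.mk_out_eq_mul Γ' g
    refine ⟨(g : SL(2, ℤ) ⧸ Γ'), g • τ, hg, ?_⟩
    rw [hγ, mul_inv_rev, mul_smul, inv_smul_smul]
    exact (hnorm_smul f (inv_mem γ.2 : (γ : SL(2, ℤ))⁻¹ ∈ Γ') τ).symm
  obtain ⟨y, hy⟩ : ∃ y : ℝ, ∀ σ : ℍ, y ≤ σ.im → ∀ q : SL(2, ℤ) ⧸ Γ',
      hnorm f (q.out⁻¹ • σ) < M := by
    have h := eventually_all.2 fun q : SL(2, ℤ) ⧸ Γ' =>
      (tendsto_hnorm_smul f q.out⁻¹).eventually (gt_mem_nhds hMpos)
    rw [atImInfty, eventually_comap, eventually_atTop] at h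
    obtain ⟨y, hy⟩ := h
    exact ⟨y, fun σ hσ => hy _ hσ σ rfl⟩
  set S : Set ℍ := ⋃ q : SL(2, ℤ) ⧸ Γ',
    (fun σ : ℍ => q.out⁻¹ • σ) '' truncatedFundamentalDomain y
  have hcpt : IsCompact S := isCompact_iUnion fun q =>
    (isCompact_truncatedFundamentalDomain y).image (by simp only [sl_moeb]; fun_prop)
  have key : ∀ τ, hnorm f τ < M ∨ ∃ σ ∈ S, hnorm f τ = hnorm f σ := by
    intro τ
    obtain ⟨q, σ, hσ, e⟩ := hcover τ
    rcases le_total y σ.im with hle | hle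
    · exact Or.inl (e ▸ hy σ hle q)
    · exact Or.inr ⟨_, Set.mem_iUnion.2 ⟨q, σ, ⟨hσ, hle⟩, rfl⟩, e⟩
  obtain ⟨σ₁, hσ₁, e₁⟩ : ∃ σ ∈ S, hnorm f τ₁ = hnorm f σ := (key τ₁).resolve_left (lt_irrefl _)
  have hcont : Continuous (hnorm f) :=
    (CuspFormClass.holo f).continuous.norm.mul continuous_im
  obtain ⟨τ₀, -, hmax⟩ := hcpt.exists_isMaxOn ⟨σ₁, hσ₁⟩ hcont.continuousOn
  have hM0 : M ≤ hnorm f τ₀ := by
    rw [hM, e₁]
    exact hmax hσ₁
  refine ⟨τ₀, hMpos.trans_le hM0, fun τ => ?_⟩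
  rcases key τ with hlt | ⟨σ, hσ, e⟩
  · exact hlt.le.trans hM0
  · exact e ▸ hmax hσ

/-- **The strict trivial bound**: if `∑ w i • (f ∣[2] g i) = a • f` with `‖w i‖ ≤ 1` and some
`g i` scales imaginary parts by `c > 1`, then `‖a‖ < #ι`. -/
theorem norm_lt_card_of_sum_slash_eq (f : CuspForm Γ 2) (hf : f ≠ 0) {ι : Type*} [Fintype ι]
    (g : ι → GL (Fin 2) ℝ) (hg : ∀ i, 0 < (g i).det.val) (w : ι → ℂ) (hw : ∀ i, ‖w i‖ ≤ 1)
    {a : ℂ} (h : ∑ i, w i • (⇑f ∣[(2 : ℤ)] g i) = a • ⇑f) {i₀ : ι} {c : ℝ} (hc : 1 < c)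
    (hi₀ : ∀ τ : ℍ, (g i₀ • τ).im = c * τ.im) : ‖a‖ < Fintype.card ι := by
  classical
  obtain ⟨τ₀, hpos, hmax⟩ := exists_hnorm_max f hf
  set M := hnorm f τ₀ with hM
  by_contra hle
  push Not at hle
  -- at a maximum all translates are maxima
  have step : ∀ τ : ℍ, hnorm f τ = M → hnorm f (g i₀ • τ) = M := by
    intro τ hτ
    have hb : ‖a‖ * M ≤ ∑ i, hnorm f (g i • τ) := by
      have hval : a * f τ = ∑ i, w i * (⇑f ∣[(2 : ℤ)] g i) τ := by
        have := congrFun h τ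
        simpa [Finset.sum_apply, Pi.smul_apply, smul_eq_mul] using this.symm
      calc ‖a‖ * M = ‖a * f τ‖ * τ.im := by rw [← hτ, hnorm, norm_mul, mul_assoc]
        _ ≤ (∑ i, ‖w i * (⇑f ∣[(2 : ℤ)] g i) τ‖) * τ.im := by
          rw [hval]
          exact mul_le_mul_of_nonneg_right (norm_sum_le _ _) τ.im_pos.le
        _ ≤ (∑ i, ‖(⇑f ∣[(2 : ℤ)] g i) τ‖) * τ.im := by
          refine mul_le_mul_of_nonneg_right (Finset.sum_le_sum fun i _ => ?_) τ.im_pos.le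
          rw [norm_mul]
          exact mul_le_of_le_one_left (norm_nonneg _) (hw i)
        _ = ∑ i, hnorm f (g i • τ) := by
          rw [Finset.sum_mul]
          exact Finset.sum_congr rfl fun i _ => hnorm_slash (hg i) f τ
    refine le_antisymm (hmax _) (le_of_not_gt fun hlt => ?_)
    have hcard : (∑ i, hnorm f (g i • τ)) < ∑ _i : ι, M :=
      Finset.sum_lt_sum (fun i _ => hmax _) ⟨i₀, Finset.mem_univ _, hlt⟩
    rw [Finset.sum_const, Finset.card_univ, nsmul_eq_mul] at hcard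
    nlinarith [mul_le_mul_of_nonneg_right hle hpos.le]
  -- hence the maximum is attained arbitrarily close to `i∞`
  set x : ℕ → ℍ := fun k => (fun τ => g i₀ • τ)^[k] τ₀ with hx
  have hxM : ∀ k, hnorm f (x k) = M ∧ (x k).im = c ^ k * τ₀.im := by
    intro k
    induction k with
    | zero => simp [hx, hM]
    | succ k ih =>
      have e : x (k + 1) = g i₀ • x k := Function.iterate_succ_apply' _ _ _
      rw [e, hi₀, ih.2, pow_succ]
      exact ⟨step _ ih.1, by ring⟩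
  have hlim : Tendsto x atTop atImInfty := by
    rw [atImInfty, tendsto_comap_iff]
    have : Tendsto (fun k => c ^ k * τ₀.im) atTop atTop :=
      (tendsto_pow_atTop_atTop_of_one_lt hc).atTop_mul_const τ₀.im_pos
    exact this.congr fun k => (hxM k).2.symm
  have h0 : Tendsto (fun τ => hnorm f τ) atImInfty (𝓝 0) := by
    simpa using tendsto_hnorm_smul f 1
  have h1 : Tendsto (fun k => hnorm f (x k)) atTop (𝓝 0) := h0.comp hlim
  simp only [(hxM _).1] at h1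
  exact hpos.ne' (tendsto_nhds_unique tendsto_const_nhds h1)

section Gamma0

open CongruenceSubgroup ModularForm
open ModularFormClass (qCoeff)

variable {N : ℕ} [NeZero N] {ℓ : ℕ}

/-- An eigenvalue of `T_ℓ`, `ℓ ∤ N`, on weight two cusp forms on `Γ₀(N)` has absolute value
`< ℓ + 1`. -/
theorem norm_lt_succ_of_heckeTLin_eq (hℓ : ℓ.Prime) (hℓN : ¬ ℓ ∣ N) {f : CuspForm (Gamma0 N) 2}
    (hf : f ≠ 0) {a : ℂ} (h : CuspForm.heckeTLin 2 hℓ hℓN f = a • f) :
    ‖a‖ < (ℓ : ℝ) + 1 := by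
  have h' : heckeT 2 ℓ ⇑f = a • ⇑f := by
    rw [← CuspForm.coe_heckeTLin_apply 2 hℓ hℓN f, h, FunLike.coe_smul]
  let g : Option (Fin ℓ) → GL (Fin 2) ℝ :=
    fun i => i.elim (heckeDiagMatrix ℓ) fun j => heckeMatrix ℓ j
  have := norm_lt_card_of_sum_slash_eq f hf g (fun i => ?_) (fun _ => 1) (fun _ => by simp)
    (a := a) ?_ (i₀ := none) (c := (ℓ : ℝ)) (by exact_mod_cast hℓ.one_lt) fun τ => ?_
  · simpa using this
  · rcases i with _ | j
    · exact det_heckeDiagMatrix_pos ℓ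
    · exact det_heckeMatrix_pos ℓ j
  · rw [← h', heckeT_def, Fintype.sum_option, add_comm]
    simp [g, Finset.sum_range]
  · show (heckeDiagMatrix ℓ • τ).im = _
    rw [← coe_im, coe_heckeDiagMatrix_smul hℓ.ne_zero]
    simp

/-- **`|a_ℓ| < ℓ + 1`** for a normalised eigenform of weight two on `Γ₀(N)` and `ℓ ∤ N`. -/
theorem norm_qCoeff_lt_succ {f : CuspForm (Gamma0 N) 2} (hf : f.IsNormalizedEigenform)
    (hℓ : ℓ.Prime) (hℓN : ¬ ℓ ∣ N) : ‖qCoeff ⇑f ℓ‖ < (ℓ : ℝ) + 1 := by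
  refine norm_lt_succ_of_heckeTLin_eq hℓ hℓN ?_ (Hecke.heckeTLin_eigenform hf hℓ hℓN)
  intro h0
  have := hf.qCoeff_one
  rw [h0] at this
  simp at this

/-- In particular `a_ℓ² ≠ (ℓ + 1)²`. -/
theorem qCoeff_sq_ne_succ_sq {f : CuspForm (Gamma0 N) 2} (hf : f.IsNormalizedEigenform)
    (hℓ : ℓ.Prime) (hℓN : ¬ ℓ ∣ N) : qCoeff ⇑f ℓ ^ 2 ≠ ((ℓ : ℂ) + 1) ^ 2 := by
  intro e
  have h := norm_qCoeff_lt_succ hf hℓ hℓN
  have e' := congrArg (‖·‖) e
  simp only [norm_pow] at e'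
  rw [show ((ℓ : ℂ) + 1) = ((ℓ + 1 : ℕ) : ℂ) by push_cast; ring, Complex.norm_natCast,
    pow_left_inj₀ (norm_nonneg _) (Nat.cast_nonneg _) two_ne_zero] at e'
  rw [e'] at h
  push_cast at h
  exact lt_irrefl _ h

end Gamma0

end Fermat.Agent.EigenBound

end
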