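import Fermat.Agent.RootIrred.EigenvalueBound
import Fermat.Agent.GammaH.Hecke

/-!
# The strict trivial bound at level `Γ_H(N)`

For a simultaneous eigenvector of `T_ℓ` (`ℓ ∤ N`) and of the diamond operator `⟨ℓ⟩`, with
eigenvalues `a` and `c`, one has `‖c‖ = 1` and `‖a‖ < ℓ + 1`; in particular
`c * (ℓ + 1) ^ 2 - a ^ 2 ≠ 0`.
-/

set_option autoImplicit false

noncomputable section

open UpperHalfPlane CongruenceSubgroup
open scoped MatrixGroups ModularForm OnePoint

namespace Fermat.Agent.EigenBound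

open Fermat.Agent.GammaH Fermat.Agent.Newform Fermat.Agent.Periods
open ModularForm (heckeMatrix heckeDiagMatrix)

variable {N ℓ : ℕ} [NeZero N] {H : Subgroup (ZMod N)ˣ}

/-- An eigenvalue of a diamond operator has absolute value one. -/
theorem norm_eq_one_of_diamond_eq {a : (ZMod N)ˣ} {f : S2 N H} (hf : f ≠ 0) {c : ℂ}
    (h : diamond a f = c • f) : ‖c‖ = 1 := by
  have hn : ∀ n : ℕ, (diamondHom a ^ n) f = c ^ n • f := by
    intro n
    induction n with
    | zero => simp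
    | succ n ih =>
      rw [pow_succ', Module.End.mul_apply, ih, map_smul, diamondHom_apply, h, smul_smul, pow_succ]
  have h1 := hn (orderOf a)
  rw [← map_pow, pow_orderOf_eq_one, map_one, Module.End.one_apply] at h1
  have hc : c ^ orderOf a = 1 := by
    by_contra hne
    exact hf (smul_eq_zero.1 (by rw [sub_smul, one_smul, ← h1, sub_self] :
      (c ^ orderOf a - 1) • f = 0) |>.resolve_left (sub_ne_zero.2 hne))
  exact Complex.norm_eq_one_of_pow_eq_one hc (orderOf_pos a).ne'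

/-- An eigenvalue of `T_ℓ` on a `⟨ℓ⟩`-eigenvector has absolute value `< ℓ + 1`. -/
theorem norm_lt_succ_of_heckeT_eq (hℓ : ℓ.Prime) (hℓN : ¬ ℓ ∣ N) {f : S2 N H} (hf : f ≠ 0)
    {a c : ℂ} (hT : GammaH.heckeT hℓ hℓN f = a • f)
    (hD : diamond (primeUnit hℓ hℓN) f = c • f) : ‖a‖ < (ℓ : ℝ) + 1 := by
  have : NeZero ℓ := ⟨hℓ.ne_zero⟩
  have hc := norm_eq_one_of_diamond_eq hf hD
  let g : OnePoint (ZMod ℓ) → GL (Fin 2) ℝ :=
    fun x => x.elim (heckeDiagMatrix ℓ) fun j => heckeMatrix ℓ j.val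
  let w : OnePoint (ZMod ℓ) → ℂ := fun x => x.elim c fun _ => 1
  have hsum : ∑ x, w x • (⇑f ∣[(2 : ℤ)] g x) = a • ⇑f := by
    have hT' := congrArg (fun u : S2 N H => (u : ℍ → ℂ)) hT
    simp only [coe_heckeT, FunLike.coe_smul] at hT'
    rw [← hT']
    refine Finset.sum_congr rfl fun x _ => ?_
    induction x using OnePoint.rec with
    | infty =>
      have hD' := congrArg (fun u : S2 N H => (u : ℍ → ℂ)) hD
      simp only [coe_diamond', FunLike.coe_smul] at hD'
      rw [repT_infty, SlashAction.slash_mul]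
      show c • (⇑f ∣[(2 : ℤ)] heckeDiagMatrix ℓ) = (⇑f ∣[(2 : ℤ)] _) ∣[(2 : ℤ)] heckeDiagMatrix ℓ
      erw [hD']
      rw [ModularForm.smul_slash, ModularForm.σ_heckeDiagMatrix, ContinuousAlgEquiv.refl_apply]
    | coe j =>
      rw [repT_coe]
      show (1 : ℂ) • (⇑f ∣[(2 : ℤ)] g (j : OnePoint (ZMod ℓ))) = _
      rw [one_smul]
      rfl
  have := norm_lt_card_of_sum_slash_eq f hf g (fun x => ?_) w (fun x => ?_) hsum
    (i₀ := (∞ : OnePoint (ZMod ℓ))) (c := (ℓ : ℝ)) (by exact_mod_cast hℓ.one_lt) fun τ => ?_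
  · have e : Fintype.card (OnePoint (ZMod ℓ)) = ℓ + 1 :=
      (Fintype.card_option (α := ZMod ℓ)).trans (by rw [ZMod.card])
    rw [e] at this
    exact_mod_cast this
  · induction x using OnePoint.rec with
    | infty => exact ModularForm.det_heckeDiagMatrix_pos ℓ
    | coe j => exact ModularForm.det_heckeMatrix_pos ℓ j.val
  · induction x using OnePoint.rec with
    | infty => exact hc.le
    | coe j => simp [w]
  · show (heckeDiagMatrix ℓ • τ).im = _
    rw [← UpperHalfPlane.coe_im, ModularForm.coe_heckeDiagMatrix_smul hℓ.ne_zero]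
    simp

/-- The determinant of the level-raising matrix does not vanish on eigenvectors. -/
theorem diamond_mul_succ_sq_sub_sq_ne_zero (hℓ : ℓ.Prime) (hℓN : ¬ ℓ ∣ N) {f : S2 N H}
    (hf : f ≠ 0) {a c : ℂ} (hT : GammaH.heckeT hℓ hℓN f = a • f)
    (hD : diamond (primeUnit hℓ hℓN) f = c • f) : c * ((ℓ : ℂ) + 1) ^ 2 - a ^ 2 ≠ 0 := by
  intro e
  have h := norm_lt_succ_of_heckeT_eq hℓ hℓN hf hT hD
  have e' := congrArg (‖·‖) (sub_eq_zero.1 e)
  simp only [norm_mul, norm_pow, norm_eq_one_of_diamond_eq hf hD, one_mul] at e'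
  rw [show ((ℓ : ℂ) + 1) = ((ℓ + 1 : ℕ) : ℂ) by push_cast; ring, Complex.norm_natCast,
    pow_left_inj₀ (Nat.cast_nonneg _) (norm_nonneg _) two_ne_zero] at e'
  rw [← e'] at h
  push_cast at h
  exact lt_irrefl _ h

end Fermat.Agent.EigenBound

end
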