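import Fermat.Agent.Carayol.Descent.InertiaField
import Fermat.Agent.Multiplicative.Inertia
import Fermat.Agent.EC.Torsion.Main
import Fermat.Prelude.Def_FLTPrelim_Ramification

/-!
# A multiplicative prime with valuation prime to `p` ramifies in `E[p]`
-/

set_option autoImplicit false

noncomputable section

open WeierstrassCurve
open scoped WeierstrassCurve.Affine

namespace Fermat.Agent.RootIrred

open Fermat.Agent Fermat.Agent.Multiplicative

local notation "Qbar" => AlgebraicClosure ℚ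
local notation "ΓQ" => (AlgebraicClosure ℚ ≃ₐ[ℚ] AlgebraicClosure ℚ)
local notation "EQ" W => ((WeierstrassCurve.map W (Int.castRingHom ℚ))⁄(AlgebraicClosure ℚ))

variable {W : WeierstrassCurve ℤ} {A : ValuationSubring (AlgebraicClosure ℚ)} {q : ℕ}

/-- A torsion point fixed by inertia lies on the identity component. -/
theorem mem_E0_of_inertia_fixed (h : MultAt W A q) {p : ℕ} (hp : p.Prime)
    (hv : ¬ p ∣ padicValInt q W.Δ) {P : (EQ W).Point} (hP : p • P = 0)
    (hfix : ∀ σ ∈ A.inertiaSubgroupIn ℚ, σ • P = P) : P ∈ h.node.E0 := by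
  rw [NodeData.mem_E0]
  by_contra hg
  rcases P with _ | ⟨x, y, hxy⟩
  · exact hg trivial
  obtain ⟨k, hk⟩ := h.exists_wPoint_pow hP
  have hX : A.valuation (h.node.X x) < 1 := not_le.1 hg
  have honN := h.node.onNode hxy.left
  have hw1 : A.valuation h.node.a < h.node.wPoint (.some x y hxy) ∧
      h.node.wPoint (.some x y hxy) < 1 := wv_mem h.node.ha₀ h.node.ha honN hX
  -- the valuations of fixed elements are powers of `q`
  have hxσ : ∀ σ ∈ A.inertiaSubgroupIn ℚ, σ x = x ∧ σ y = y := fun σ hσ =>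
    Affine.Point.some.inj (hfix σ hσ)
  have hval : ∀ z : Qbar, (∀ σ ∈ A.inertiaSubgroupIn ℚ, σ z = z) → z ≠ 0 →
      ∃ m : ℤ, A.valuation z = A.valuation (q : Qbar) ^ m := fun z hz hz0 => by
    obtain ⟨m, h1, h2⟩ := Carayol.InertiaField.exists_zpow_mul_unit h.prime h.liesOver hz hz0
    rw [← ValuationSubring.valuation_le_one_iff, map_div₀, map_zpow₀,
      div_le_one₀ (zpow_pos (v_prime_pos h.prime) m)] at h1
    rw [← ValuationSubring.valuation_le_one_iff, map_div₀, map_zpow₀,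
      div_le_one₀ (zero_lt_iff.2 ((map_ne_zero _).2 hz0))] at h2
    exact ⟨m, le_antisymm h1 h2⟩
  obtain ⟨m, hm⟩ : ∃ m : ℤ, h.node.wPoint (.some x y hxy) = A.valuation (q : Qbar) ^ m := by
    have hY : ∀ σ ∈ A.inertiaSubgroupIn ℚ,
        σ (h.node.Y x y) = h.node.Y x y ∧ σ (h.node.X x) = h.node.X x := fun σ hσ => by
      rw [← h.Y_apply hσ, ← h.X_apply hσ, (hxσ σ hσ).1, (hxσ σ hσ).2]
      exact ⟨rfl, rfl⟩
    have hw : h.node.wPoint (.some x y hxy) =
        if A.valuation (h.node.X x + h.node.Y x y) ≤ A.valuation (h.node.Y x y)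
        then A.valuation (h.node.Y x y)
        else A.valuation h.node.a / A.valuation (h.node.X x + h.node.Y x y) := by
      show wv A.valuation h.node.a (h.node.X x) (h.node.Y x y) = _
      rw [wv, if_pos hX]
    have hpos := (zero_le.trans_lt hw1.1).ne'
    rw [hw] at hpos ⊢
    split_ifs with hle
    · rw [if_pos hle] at hpos
      exact hval _ (fun σ hσ => (hY σ hσ).1) fun h0 => hpos (by rw [h0, map_zero])
    · rw [if_neg hle] at hpos
      obtain ⟨m, hm⟩ := hval (h.node.X x + h.node.Y x y)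
        (fun σ hσ => by rw [map_add, (hY σ hσ).1, (hY σ hσ).2])
        fun h0 => hpos (by rw [h0, map_zero, div_zero])
      exact ⟨(padicValInt q W.Δ : ℤ) - m, by
        rw [hm, h.v_a, zpow_sub₀ (v_prime_pos h.prime).ne', zpow_natCast]⟩
  rw [hm, h.v_a, ← zpow_natCast (A.valuation (q : Qbar) ^ m), ← zpow_mul, ← zpow_natCast,
    ← zpow_mul] at hk
  have hinj := (zpow_right_strictAnti₀ (v_prime_pos h.prime)
    (v_prime_lt_one h.liesOver)).injective hk
  rw [hm, h.v_a, ← zpow_natCast] at hw1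
  have h1 : m < padicValInt q W.Δ :=
    (zpow_lt_zpow_iff_right_of_lt_one₀ (v_prime_pos h.prime) (v_prime_lt_one h.liesOver)).1 hw1.1
  have h0 : 0 < m := by
    rw [← zpow_zero (A.valuation (q : Qbar))] at hw1
    exact (zpow_lt_zpow_iff_right_of_lt_one₀ (v_prime_pos h.prime) (v_prime_lt_one h.liesOver)).1
      hw1.2
  have hd : (p : ℤ) ∣ (padicValInt q W.Δ : ℤ) * k := ⟨m, by rw [← hinj]; ring⟩
  rcases (Nat.prime_iff_prime_int.1 hp).dvd_or_dvd hd with hd' | hd'
  · exact hv (Int.natCast_dvd_natCast.1 hd')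
  · obtain ⟨j, rfl⟩ := hd'
    have hmj : m = (padicValInt q W.Δ : ℤ) * j :=
      mul_right_cancel₀ (b := (p : ℤ)) (by exact_mod_cast hp.ne_zero) (by rw [hinj]; ring)
    rcases le_or_gt j 0 with hj | hj
    · nlinarith [Int.natCast_nonneg (padicValInt q W.Δ)]
    · nlinarith [Int.natCast_nonneg (padicValInt q W.Δ)]

/-- If `p ∤ v_q(Δ)` some element of inertia moves a `p`-torsion point. -/
theorem exists_inertia_moves (h : MultAt W A q) {p : ℕ} (hp : p.Prime) (hqp : q ≠ p)
    (hv : ¬ p ∣ padicValInt q W.Δ) :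
    ∃ σ ∈ A.inertiaSubgroupIn ℚ, ∃ P : Submodule.torsionBy ℤ (EQ W).Point p, σ • P ≠ P := by
  by_contra hcon
  push Not at hcon
  have hcard := EC.Torsion.natCard_torsionBy_int W h.Δ_ne_zero hp.ne_zero
  have hfin : Finite (Submodule.torsionBy ℤ (EQ W).Point p) :=
    Nat.finite_of_card_ne_zero (by rw [hcard]; exact pow_ne_zero 2 hp.ne_zero)
  have hmem : ∀ T : Submodule.torsionBy ℤ (EQ W).Point p,
      W.InZeroComponentAt A (T : (EQ W).Point) ∧ p • (T : (EQ W).Point) = 0 := fun T => by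
    have hT : p • (T : (EQ W).Point) = 0 := by
      rw [← natCast_zsmul]; exact T.2
    exact ⟨(h.inZeroComponentAt_iff_mem_E0 _).2 (mem_E0_of_inertia_fixed h hp hv hT
      fun σ hσ => congrArg Subtype.val (hcon σ hσ T)), hT⟩
  have hnt : Nontrivial (Submodule.torsionBy ℤ (EQ W).Point p) := by
    rw [← Finite.one_lt_card_iff_nontrivial, hcard]
    exact Nat.one_lt_pow two_ne_zero hp.one_lt
  obtain ⟨T, hT⟩ := exists_ne (0 : Submodule.torsionBy ℤ (EQ W).Point p)
  have hT' : (T : (EQ W).Point) ≠ 0 := fun e => hT (Subtype.ext e)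
  have hsurj : Function.Surjective fun i : Fin p => (i : ℕ) • T := fun T' => by
    obtain ⟨k, hk⟩ := h.exists_nsmul_eq_of_mem_E0 hp hqp.symm (hmem T).1 (hmem T').1
      (hmem T).2 (hmem T').2 hT'
    refine ⟨⟨k % p, Nat.mod_lt _ hp.pos⟩, Subtype.ext ?_⟩
    show (k % p) • (T : (EQ W).Point) = (T' : (EQ W).Point)
    rw [hk]
    conv_rhs => rw [← Nat.mod_add_div k p, add_nsmul, mul_nsmul, (hmem T).2, nsmul_zero, add_zero]
  have hle := Nat.card_le_card_of_surjective _ hsurj
  rw [hcard, Nat.card_fin, sq] at hle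
  nlinarith [hp.two_le]

end Fermat.Agent.RootIrred
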