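import Fermat.Agent.Carayol.Descent.InertiaField
import Fermat.Agent.EC.Reducible.NonIntegral
import Fermat.Agent.Multiplicative.Valuation
import Fermat.Agent.EC.Reduction.Galois

/-!
# Two facts about inertia at a place of `ℚ̄`

Inertia commutes up to elements of `p`-power order; a polynomial with leading coefficient `p` and no
integral root has no proper subset of roots with product fixed by inertia.
-/

set_option autoImplicit false

noncomputable section

namespace Fermat.Agent.RootIrred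

open Polynomial Fermat.Agent.Multiplicative Fermat.Agent.EC.Reduction

local notation "Qbar" => AlgebraicClosure ℚ
local notation "ΓQ" => (AlgebraicClosure ℚ ≃ₐ[ℚ] AlgebraicClosure ℚ)

variable {A : ValuationSubring (AlgebraicClosure ℚ)}

theorem v_inertia_sub_lt {σ : ΓQ} (hσ : σ ∈ A.inertiaSubgroupIn ℚ) {y : Qbar} (hy : y ≠ 0)
    {z : Qbar} (hz : A.valuation z ≤ A.valuation y) :
    A.valuation (y * (σ (z / y) - z / y)) < A.valuation y := by
  rw [map_mul]
  refine mul_lt_of_lt_one_right (zero_lt_iff.2 ((_root_.map_ne_zero _).2 hy)) (v_inertia_sub hσ ?_)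
  rw [map_div₀]
  exact div_le_one_of_le₀ hz zero_le

/-- A commutator of inertia moves every element by less than its absolute value. -/
theorem v_commutator_sub_lt {σ τ : ΓQ} (hσ : σ ∈ A.inertiaSubgroupIn ℚ)
    (hτ : τ ∈ A.inertiaSubgroupIn ℚ) {z : Qbar} (hz : z ≠ 0) :
    A.valuation ((σ * τ * σ⁻¹ * τ⁻¹) z - z) < A.valuation z := by
  have hd : ∀ {g : ΓQ}, g ∈ A.inertiaSubgroupIn ℚ → g ∈ A.decompositionSubgroup ℚ := fun hg =>
    mem_decomposition_of_mem_inertia hg
  set y : Qbar := (σ⁻¹ * τ⁻¹) z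
  have hy : y ≠ 0 := by simpa [y] using hz
  have hvy : A.valuation y = A.valuation z := by
    rw [show y = σ⁻¹ (τ⁻¹ z) from rfl, v_apply (hd (inv_mem hσ)), v_apply (hd (inv_mem hτ))]
  have hvσ : A.valuation (σ y) = A.valuation y := v_apply (hd hσ) y
  have hvτ : A.valuation (τ y) = A.valuation y := v_apply (hd hτ) y
  have key : (σ * τ * σ⁻¹ * τ⁻¹) z - z =
      σ y / y * (y * (σ (τ y / y) - τ y / y)) - τ y / y * (y * (τ (σ y / y) - σ y / y)) := by
    have e1 : (σ * τ * σ⁻¹ * τ⁻¹) z = σ (τ y) := rfl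
    have e2 : z = τ (σ y) := by simp [y]
    rw [e1]
    nth_rewrite 1 [e2]
    rw [map_div₀, map_div₀]
    have h1 : σ y ≠ 0 := by simpa using hy
    have h2 : τ y ≠ 0 := by simpa using hy
    field_simp
    ring
  rw [key]
  refine lt_of_le_of_lt (Valuation.map_sub _ _ _) (max_lt ?_ ?_)
  · rw [map_mul, map_div₀, hvσ, div_self ((_root_.map_ne_zero _).2 hy), one_mul, ← hvy]
    exact v_inertia_sub_lt hσ hy hvτ.le
  · rw [map_mul, map_div₀, hvτ, div_self ((_root_.map_ne_zero _).2 hy), one_mul, ← hvy]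
    exact v_inertia_sub_lt hτ hy hvσ.le

/-- A commutator of inertia whose `n`-th power fixes `x`, `n` prime to `p`, fixes `x`. -/
theorem commutator_apply_eq {p : ℕ} (hp : p.Prime) (hA : A.LiesOverPrime p) {σ τ : ΓQ}
    (hσ : σ ∈ A.inertiaSubgroupIn ℚ) (hτ : τ ∈ A.inertiaSubgroupIn ℚ) {x : Qbar} {n : ℕ}
    (hn : ¬ p ∣ n) (hfix : ((σ * τ * σ⁻¹ * τ⁻¹) ^ n) x = x) :
    (σ * τ * σ⁻¹ * τ⁻¹) x = x := by
  set c := σ * τ * σ⁻¹ * τ⁻¹
  by_contra hne
  set y := c x - x
  have hy : y ≠ 0 := sub_ne_zero.2 hne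
  have hsub : ∀ z : Qbar, z ≠ 0 → A.valuation (c z - z) < A.valuation z := fun z hz =>
    v_commutator_sub_lt hσ hτ hz
  have hcd : c ∈ A.decompositionSubgroup ℚ := mem_decomposition_of_mem_inertia
    (mul_mem (mul_mem (mul_mem hσ hτ) (inv_mem hσ)) (inv_mem hτ))
  have hsum : ∑ i ∈ Finset.range n, (c ^ i) y = 0 := by
    have e : ∀ i, (c ^ i) y = (c ^ (i + 1)) x - (c ^ i) x := fun i => by
      rw [pow_succ, AlgEquiv.mul_apply, map_sub]
    rw [Finset.sum_congr rfl fun i _ => e i, Finset.sum_range_sub (fun i => (c ^ i) x), hfix,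
      pow_zero, AlgEquiv.one_apply, sub_self]
  have hi : ∀ i, A.valuation ((c ^ i) y - y) < A.valuation y := fun i => by
    induction i with
    | zero => simpa using zero_lt_iff.2 ((_root_.map_ne_zero A.valuation).2 hy)
    | succ i ih =>
      rw [pow_succ', AlgEquiv.mul_apply, ← sub_add_sub_cancel _ ((c ^ i) y) y]
      refine Valuation.map_add_lt _ ?_ ih
      have h0 : (c ^ i) y ≠ 0 := fun h => hy ((c ^ i).injective (h.trans (map_zero _).symm))
      refine (hsub _ h0).trans_le (le_of_eq ?_)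
      exact v_apply (pow_mem hcd i) y
  have hlt : A.valuation ((n : Qbar) * y) < A.valuation y := by
    rw [show (n : Qbar) * y = -∑ i ∈ Finset.range n, ((c ^ i) y - y) by
      rw [Finset.sum_sub_distrib, hsum, Finset.sum_const, Finset.card_range, nsmul_eq_mul, zero_sub,
        neg_neg], Valuation.map_neg]
    exact Valuation.map_sum_lt' _ (zero_lt_iff.2 ((_root_.map_ne_zero _).2 hy)) fun i _ => hi i
  rw [map_mul, v_natCast_eq_one hp hA hn, one_mul] at hlt
  exact lt_irrefl _ hlt

/-- No proper subset of the roots has product fixed by inertia. -/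
theorem false_of_inertia_stable_subset {p : ℕ} (hp : p.Prime) (hA : A.LiesOverPrime p) (F : ℤ[X])
    (hlead : F.leadingCoeff = (p : ℤ))
    (hroots : ∀ x : Qbar, (F.map (Int.castRingHom Qbar)).IsRoot x → x ∉ A)
    (S : Finset Qbar) (hS : S.Nonempty) (hScard : S.card < F.natDegree)
    (hSroot : ∀ x ∈ S, (F.map (Int.castRingHom Qbar)).IsRoot x)
    (hfix : ∀ σ ∈ A.inertiaSubgroupIn ℚ, σ (S.prod id) = S.prod id) : False := by
  classical
  set G := F.map (Int.castRingHom Qbar) with hG
  have hinj : Function.Injective (Int.castRingHom Qbar) := Int.cast_injective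
  have hsplit : G.Splits := IsAlgClosed.splits G
  have hGne : G ≠ 0 := by
    rw [hG, Polynomial.map_ne_zero_iff hinj]
    rintro rfl
    simp at hScard
  have hle : S.val ≤ G.roots :=
    (Multiset.le_iff_subset S.nodup).mpr fun x hx => (mem_roots hGne).mpr (hSroot x hx)
  obtain ⟨T, hT⟩ := Multiset.le_iff_exists_add.mp hle
  have hTne : T ≠ 0 := by
    intro h0
    have h := congrArg Multiset.card hT
    rw [h0, add_zero, ← hsplit.natDegree_eq_card_roots, hG,
      natDegree_map_eq_of_injective hinj F] at h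
    exact hScard.ne h.symm
  have hSnot : ∀ x ∈ S.val, x ∉ A := fun x hx => hroots x (hSroot x hx)
  have hTnot : ∀ x ∈ T, x ∉ A := fun x hx =>
    hroots x ((mem_roots hGne).mp (hT ▸ Multiset.mem_add.mpr (Or.inr hx)))
  have hTlt := EC.Reducible.valuation_multiset_prod_inv_lt_one hTnot hTne
  have hSlt := EC.Reducible.valuation_multiset_prod_inv_lt_one hSnot (by
    simpa [Finset.val_eq_zero] using hS.ne_empty)
  rw [Multiset.prod_map_inv, Multiset.map_id', map_inv₀] at hTlt hSlt
  have hSprod : S.prod id = S.val.prod := by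
    rw [Finset.prod_eq_multiset_prod, Multiset.map_id]
  have hne0 : ∀ (s : Multiset Qbar), (∀ x ∈ s, x ∉ A) → s.prod ≠ 0 := fun s hs =>
    Multiset.prod_ne_zero fun h0 => hs 0 h0 A.zero_mem
  have hS0 := hne0 _ hSnot
  have hq0 : 0 < A.valuation (p : Qbar) := v_prime_pos hp
  have hq1 : A.valuation (p : Qbar) < 1 := v_prime_lt_one hA
  obtain ⟨m, hm1, hm2⟩ := Carayol.InertiaField.exists_zpow_mul_unit hp hA (x := S.val.prod)
    (fun σ hσ => hSprod ▸ hfix σ hσ) hS0
  rw [← ValuationSubring.valuation_le_one_iff, map_div₀, map_zpow₀,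
    div_le_one₀ (zpow_pos hq0 m)] at hm1
  rw [← ValuationSubring.valuation_le_one_iff, map_div₀, map_zpow₀,
    div_le_one₀ (zero_lt_iff.2 ((_root_.map_ne_zero _).2 hS0))] at hm2
  have hvS : A.valuation S.val.prod = A.valuation (p : Qbar) ^ m := le_antisymm hm1 hm2
  have hm : m ≤ -1 := by
    by_contra h
    rw [hvS] at hSlt
    rcases eq_or_lt_of_le (show 0 ≤ m by omega) with rfl | hm0
    · simp at hSlt
    · exact absurd hSlt (not_lt.2 (one_le_inv₀ (zpow_pos hq0 m) |>.2
        ((zpow_le_one_iff_right_of_lt_one₀ hq0 hq1).2 hm0.le)))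
  have hc0 := congrArg A.valuation hsplit.coeff_zero_eq_leadingCoeff_mul_prod_roots
  rw [hT, Multiset.prod_add, hG, coeff_map, leadingCoeff_map_of_injective hinj, hlead, map_mul,
    map_mul, map_mul, map_pow, Valuation.map_neg, map_one, one_pow, one_mul, hvS] at hc0
  simp only [eq_intCast, Int.cast_natCast] at hc0
  have hle1 : A.valuation ((F.coeff 0 : ℤ) : Qbar) ≤ 1 := v_intCast_le_one A _
  rw [hc0] at hle1
  have hTpos : 0 < A.valuation T.prod := zero_lt_iff.2 ((_root_.map_ne_zero _).2 (hne0 _ hTnot))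
  have hT1 : 1 < A.valuation T.prod := (inv_lt_one₀ hTpos).1 hTlt
  have hS1 : 1 ≤ A.valuation (p : Qbar) * A.valuation (p : Qbar) ^ m := by
    rw [← zpow_one_add₀ hq0.ne']
    exact (one_le_zpow_iff_right_of_lt_one₀ hq0 hq1).2 (by omega)
  rw [← mul_assoc] at hle1
  exact absurd hle1 (not_le.2 (lt_of_lt_of_le hT1 (le_mul_of_one_le_left zero_le hS1)))

end Fermat.Agent.RootIrred
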