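import Fermat.Agent.RootIrred.Adjoint
import Fermat.Agent.RootIrred.Local
import Fermat.Agent.Root.Defs
import Fermat.Agent.EC.Frobenius.DetCyclotomic
import Fermat.Agent.EC.Torsion.Main
import Fermat.Agent.EC.Reducible.Semistable
import Fermat.Agent.EC.Reducible.FreyCofixed
import Fermat.Prelude.Def_ExtCitation_AdmissibleExtension
import Fermat.Prelude.Def_GaloisRep_ComplexConjugation

/-!
# `E[p]` in matrices: determinant, roots of unity, irreducibility, inertia away from `p`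
-/

set_option autoImplicit false

noncomputable section

open WeierstrassCurve WeierstrassCurve.Affine.Point
open scoped WeierstrassCurve.Affine Pointwise

namespace Fermat.Agent.RootIrred

open Fermat.Agent Matrix

local notation "Qbar" => AlgebraicClosure ℚ
local notation "ΓQ" => (AlgebraicClosure ℚ ≃ₐ[ℚ] AlgebraicClosure ℚ)
local notation "EQ" W => ((WeierstrassCurve.map W (Int.castRingHom ℚ))⁄(AlgebraicClosure ℚ))
/-- The `p`-torsion of `W` over `ℚ̄`. -/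
abbrev Tors (W : WeierstrassCurve ℤ) (p : ℕ) :
    Submodule ℤ ((WeierstrassCurve.map W (Int.castRingHom ℚ))⁄(AlgebraicClosure ℚ)).Point :=
  Submodule.torsionBy ℤ _ p

variable {W : WeierstrassCurve ℤ} {p : ℕ} [Fact p.Prime]

theorem finrank_tors (hΔ : W.Δ ≠ 0) : Module.finrank (ZMod p) (Tors W p) = 2 := by
  have := EC.Torsion.isElliptic_baseChange_map W hΔ Qbar
  exact EC.Torsion.finrank_torsionBy (W.map (Int.castRingHom ℚ)) Qbar
    (Nat.cast_ne_zero.2 (Fact.out : p.Prime).ne_zero)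

theorem finite_tors (hΔ : W.Δ ≠ 0) : Module.Finite (ZMod p) (Tors W p) := by
  have := EC.Torsion.isElliptic_baseChange_map W hΔ Qbar
  exact EC.Torsion.moduleFinite_torsionBy (W.map (Int.castRingHom ℚ)) Qbar
    (Nat.cast_ne_zero.2 (Fact.out : p.Prime).ne_zero)

/-- A basis of `E[p]`. -/
def torsBasis (hΔ : W.Δ ≠ 0) : Module.Basis (Fin 2) (ZMod p) (Tors W p) :=
  haveI := finite_tors (p := p) hΔ
  Module.finBasisOfFinrankEq _ _ (finrank_tors hΔ)

/-- The representation on `E[p]` in matrices. -/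
def mat (hΔ : W.Δ ≠ 0) : ΓQ →* Matrix (Fin 2) (Fin 2) (ZMod p) :=
  ((LinearMap.toMatrixAlgEquiv (torsBasis (p := p) hΔ) :
    Module.End (ZMod p) (Tors W p) ≃ₐ[ZMod p] _) : _ →* _).comp
      (galoisRepModuleEnd (K := Qbar) ℚ (W.map (Int.castRingHom ℚ)).toAffine p)

/-- The coordinates of a point. -/
def vec (hΔ : W.Δ ≠ 0) : (Tors W p) ≃ₗ[ZMod p] (Fin 2 → ZMod p) :=
  (torsBasis hΔ).equivFun

theorem mat_mulVec (hΔ : W.Δ ≠ 0) (σ : ΓQ) (P : Tors W p) :
    mat hΔ σ *ᵥ vec hΔ P = vec hΔ (σ • P) :=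
  LinearMap.toMatrix_mulVec_repr (torsBasis hΔ) (torsBasis hΔ) _ P

theorem mat_eq_one_iff (hΔ : W.Δ ≠ 0) (σ : ΓQ) :
    mat (p := p) hΔ σ = 1 ↔ ∀ P : Tors W p, σ • P = P := by
  refine ⟨fun h P => (vec hΔ).injective ?_, fun h => ?_⟩
  · rw [← mat_mulVec, h, one_mulVec]
  · refine Matrix.ext_of_mulVec_single fun i => ?_
    obtain ⟨P, hP⟩ := (vec (p := p) hΔ).surjective (Pi.single i 1)
    rw [← hP, mat_mulVec, h P, one_mulVec]

theorem det_mat (hΔ : W.Δ ≠ 0) [NeZero p] (σ : ΓQ) :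
    (mat (p := p) hΔ σ).det = ((modularCyclotomicCharacter Qbar
      (ExtCitation.card_rootsOfUnity_eq_self p) (σ : Qbar ≃+* Qbar) : (ZMod p)ˣ) : ZMod p) := by
  have h := congrArg (fun u : (ZMod p)ˣ => (u : ZMod p))
    (EC.Frobenius.galoisRepDetEqCyclotomic_intModel W hΔ p
      (ExtCitation.card_rootsOfUnity_eq_self p) σ)
  refine Eq.trans ?_ h
  refine Eq.trans ?_ (EC.Frobenius.coe_galoisRepDet (W.map (Int.castRingHom ℚ)) p σ).symm
  exact LinearMap.det_toMatrix (torsBasis hΔ) _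

theorem apply_rootOfUnity (hΔ : W.Δ ≠ 0) (σ : ΓQ) {ζ : Qbar} (hζ : ζ ^ p = 1) :
    σ ζ = ζ ^ ((mat (p := p) hΔ σ).det).val := by
  have : NeZero p := ⟨(Fact.out : p.Prime).ne_zero⟩
  rw [det_mat hΔ]
  exact modularCyclotomicCharacter.spec Qbar (ExtCitation.card_rootsOfUnity_eq_self p)
    (σ : Qbar ≃+* Qbar) (rootsOfUnity.mkOfPowEq ζ hζ).2

theorem det_eq_of_apply (hΔ : W.Δ ≠ 0) (σ : ΓQ) {ζ : Qbar} (hζ : IsPrimitiveRoot ζ p)
    {a : ZMod p} (h : σ ζ = ζ ^ a.val) : (mat (p := p) hΔ σ).det = a := by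
  have : NeZero p := ⟨(Fact.out : p.Prime).ne_zero⟩
  refine ZMod.val_injective p (hζ.pow_inj (ZMod.val_lt _) (ZMod.val_lt _) ?_)
  rw [← apply_rootOfUnity hΔ σ hζ.pow_eq_one, h]

theorem exists_det_eq (hΔ : W.Δ ≠ 0) (u : (ZMod p)ˣ) :
    ∃ σ : ΓQ, (mat (p := p) hΔ σ).det = u := by
  have hp : p.Prime := Fact.out
  have : NeZero p := ⟨hp.ne_zero⟩
  obtain ⟨ζ, hζ⟩ := HasEnoughRootsOfUnity.exists_primitiveRoot Qbar p
  have hζ' : IsPrimitiveRoot (ζ ^ (u : ZMod p).val) p :=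
    hζ.pow_of_coprime _ (ZMod.val_coe_unit_coprime u)
  have : Normal ℚ Qbar := Gal.isGalois_rat_qbar.to_normal
  have hmin : minpoly ℚ ζ = minpoly ℚ (ζ ^ (u : ZMod p).val) := by
    rw [← Polynomial.cyclotomic_eq_minpoly_rat hζ hp.pos,
      ← Polynomial.cyclotomic_eq_minpoly_rat hζ' hp.pos]
  obtain ⟨g, hg⟩ := (isConjRoot_iff_exists_algEquiv (K := ℚ)).1 hmin.symm
  exact ⟨g, det_eq_of_apply hΔ g hζ hg⟩

theorem exists_conj_det (hΔ : W.Δ ≠ 0) :
    ∃ c : ΓQ, mat (p := p) hΔ c * mat hΔ c = 1 ∧ (mat (p := p) hΔ c).det = -1 := by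
  have hp : p.Prime := Fact.out
  have : NeZero p := ⟨hp.ne_zero⟩
  obtain ⟨ζ, hζ⟩ := HasEnoughRootsOfUnity.exists_primitiveRoot Qbar p
  refine ⟨complexConjugation, by rw [← map_mul, complexConjugation_mul_self, map_one],
    det_eq_of_apply hΔ _ hζ ?_⟩
  have hpow : ζ ^ (-1 : ZMod p).val * ζ = 1 := by
    rw [← pow_succ, hζ.pow_eq_one_iff_dvd]
    rw [← ZMod.natCast_eq_zero_iff, Nat.cast_add, ZMod.natCast_zmod_val, Nat.cast_one,
      neg_add_cancel]
  rw [eq_inv_of_mul_eq_one_left hpow]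
  apply complexEmbedding.toRingHom.injective
  change complexEmbedding (complexConjugation ζ) = complexEmbedding ζ⁻¹
  rw [complexEmbedding_complexConjugation, map_inv₀]
  have hnorm : ‖complexEmbedding ζ‖ = 1 := Complex.norm_eq_one_of_pow_eq_one
    (by rw [← map_pow, hζ.pow_eq_one, map_one]) hp.ne_zero
  exact (Complex.inv_eq_conj hnorm).symm

theorem noEigen_of_irreducible (hΔ : W.Δ ≠ 0) (hirr : W.ModRepIsIrreducible p) :
    NoEigen (mat (p := p) hΔ) := by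
  intro v hv
  by_contra hcon
  push Not at hcon
  obtain ⟨P, rfl⟩ := (vec hΔ).surjective v
  have hP : P ≠ 0 := fun h => hv (by rw [h, _root_.map_zero])
  have hst : IsGaloisStable ℚ (Submodule.span (ZMod p) {P}) := fun σ x hx => by
    obtain ⟨a, rfl⟩ := Submodule.mem_span_singleton.1 hx
    obtain ⟨μ, hμ⟩ := hcon σ
    rw [mat_mulVec, ← map_smul] at hμ
    rw [smul_comm σ a P, (vec hΔ).injective hμ, smul_smul]
    exact Submodule.mem_span_singleton.2 ⟨_, rfl⟩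
  rcases hirr.2 _ hst with h | h
  · exact hP (Submodule.span_singleton_eq_bot.1 h)
  · have h1 : Module.finrank (ZMod p) (Submodule.span (ZMod p) {P}) = 1 := finrank_span_singleton hP
    rw [h, finrank_top, finrank_tors hΔ] at h1
    omega

/-- Inertia away from `p` acts unipotently. -/
theorem mat_unipotent (hΔ : W.Δ ≠ 0) (hss : W.IsSemistableModel) {q : ℕ} (hq : q.Prime)
    (hqp : q ≠ p) {A : ValuationSubring Qbar} (hA : A.LiesOverPrime q) {σ : ΓQ}
    (hσ : σ ∈ A.inertiaSubgroupIn ℚ) :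
    (mat (p := p) hΔ σ - 1) * (mat hΔ σ - 1) = 0 := by
  have hn : ¬ q ∣ p := fun hd => hqp ((Nat.prime_dvd_prime_iff_eq hq Fact.out).mp hd)
  have hu := EC.Reducible.unipotent_of_sub_mem (W := W) hq hA hn (fun τ hτ P => ?_) σ hσ
  · refine Matrix.ext_of_mulVec_single fun i => ?_
    obtain ⟨P, hP⟩ := (vec (p := p) hΔ).surjective (Pi.single i 1)
    have e : ∀ P : Tors W p, (mat hΔ σ - 1) *ᵥ vec hΔ P = vec hΔ (σ • P - P) := fun P => by
      rw [sub_mulVec, one_mulVec, mat_mulVec, map_sub]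
    rw [← hP, ← Matrix.mulVec_mulVec, e, e, hu P, sub_self, _root_.map_zero, zero_mulVec]
  · by_cases hqΔ : (q : ℤ) ∣ W.Δ
    · exact (Multiplicative.MultAt.mk hq hA hqΔ (hss q hq hqΔ) hΔ).smul_sub_inZeroComponentAt hτ P
    · exact EC.Reducible.inZeroComponentAt_of_good hq hA hqΔ _

/-- The kernel of the representation has finite level. -/
theorem exists_level (hΔ : W.Δ ≠ 0) :
    ∃ L : IntermediateField ℚ Qbar, FiniteDimensional ℚ L ∧
      ∀ σ ∈ L.fixingSubgroup, mat (p := p) hΔ σ = 1 := by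
  obtain ⟨L, hL, hfix⟩ :=
    EC.Torsion.galoisFactorsThroughFiniteLevel_int W hΔ (Fact.out : p.Prime).ne_zero
  exact ⟨L, hL, fun σ hσ => (mat_eq_one_iff hΔ σ).2 fun P => DFunLike.congr_fun
    (hfix σ fun y hy => (IntermediateField.mem_fixingSubgroup_iff L σ).mp hσ y hy) P⟩

/-- Matrices to the endomorphisms: the adjoint statement. -/
theorem adjointIrreducible_of_mat (hΔ : W.Δ ≠ 0) [NeZero p]
    (h : ∀ U : Submodule (ZMod p) (Matrix (Fin 2) (Fin 2) (ZMod p)),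
      (∀ x ∈ U, x.trace = 0) →
      (∀ σ : ΓQ, (mat (p := p) hΔ σ).det = 1 → ∀ x ∈ U, conjBy (mat hΔ) σ x ∈ U) →
      U = ⊥ ∨ ∀ x : Matrix (Fin 2) (Fin 2) (ZMod p), x.trace = 0 → x ∈ U) :
    Root.AdjointIrreducible p W := by
  intro U htr hst
  set e := (LinearMap.toMatrixAlgEquiv (torsBasis (p := p) hΔ)).toLinearEquiv with he
  have htrace : ∀ x, (e x).trace = LinearMap.trace (ZMod p) _ x := fun x =>
    (LinearMap.trace_eq_matrix_trace (ZMod p) (torsBasis hΔ) x).symm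
  have h1 : ∀ x ∈ U.map e.toLinearMap, x.trace = 0 := by
    rintro _ ⟨y, hy, rfl⟩
    exact (htrace y).trans (htr y hy)
  have h2 : ∀ σ : ΓQ, (mat (p := p) hΔ σ).det = 1 → ∀ x ∈ U.map e.toLinearMap,
      conjBy (mat hΔ) σ x ∈ U.map e.toLinearMap := by
    rintro σ hσ _ ⟨y, hy, rfl⟩
    refine ⟨_, hst σ (fun ζ hζ => ?_) y hy, ?_⟩
    · rw [apply_rootOfUnity hΔ σ hζ, hσ]
      have : Fact (1 < p) := ⟨(Fact.out : p.Prime).one_lt⟩
      rw [ZMod.val_one, pow_one]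
    · simp only [he, conjBy, mat, LinearEquiv.coe_coe, AlgEquiv.toLinearEquiv_apply, map_mul,
        MonoidHom.comp_apply]
      rfl
  rcases h (U.map e.toLinearMap) h1 h2 with h' | h'
  · exact Or.inl (Submodule.map_eq_bot_iff.1 h')
  · refine Or.inr fun x hx => ?_
    obtain ⟨y, hy, hxy⟩ := Submodule.mem_map.1 (h' (e x) ((htrace x).trans hx))
    exact e.injective hxy ▸ hy

end Fermat.Agent.RootIrred
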