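import Fermat.Agent.SmallPrimes.Frey
import Fermat.Agent.EC.Reducible.FreyModel
import Fermat.Prelude.Def_FLTPrelim_ModularRep

/-!
# `E[5]` of a Frey curve of any exponent is irreducible
-/

set_option autoImplicit false

open WeierstrassCurve WeierstrassCurve.Affine
open scoped WeierstrassCurve.Affine

namespace Fermat.Agent.RootIrred

open Fermat.Agent Fermat.Agent.SmallPrimes

local notation "Qbar" => AlgebraicClosure ℚ

theorem no_stable_line_five (P : FreyPackage)
    (N : Submodule (ZMod 5) (Submodule.torsionBy ℤ (P.freyCurve⁄Qbar).Point ((5 : ℕ) : ℤ)))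
    (hst : Point.IsGaloisStable ℚ N) (h0 : N ≠ ⊥) (h1 : N ≠ ⊤) : False := by
  obtain ⟨-, -, hΔ, hA, hB, hC, -⟩ := frey_invariants P
  have hΔ0 : P.freyCurve.Δ ≠ 0 := by
    rw [hΔ]; positivity
  have : P.freyCurve.IsElliptic := ⟨isUnit_iff_ne_zero.mpr hΔ0⟩
  have : (P.freyCurve⁄Qbar).IsElliptic :=
    inferInstanceAs (P.freyCurve.map (algebraMap ℚ Qbar)).IsElliptic
  have : Fact (Nat.Prime 5) := ⟨by norm_num⟩
  have hp0 : ((5 : ℕ) : Qbar) ≠ 0 := Nat.cast_ne_zero.mpr (by norm_num)
  have hfr := EC.Torsion.finrank_torsionBy P.freyCurve Qbar (p := 5) hp0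
  have hfin := EC.Torsion.moduleFinite_torsionBy P.freyCurve Qbar (p := 5) hp0
  have hN := EC.Reducible.finrank_line_eq_one hfr h0 h1
  obtain ⟨v, hv, hv0⟩ := Submodule.exists_mem_ne_zero_of_ne_bot h0
  have hQ : addOrderOf v.1 = 5 := by
    refine addOrderOf_eq_prime ?_ fun e => hv0 (Subtype.ext e)
    rw [← natCast_zsmul]
    exact (Submodule.mem_torsionBy_iff _ _).mp v.2
  have hline : ∀ σ : Qbar ≃ₐ[ℚ] Qbar, ∃ k : ℕ, σ • v.1 = k • v.1 := fun σ => by
    obtain ⟨c, hc⟩ := exists_smul_eq_of_finrank_eq_one hN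
      (x := (⟨v, hv⟩ : N)) (by simpa using hv0) ⟨σ • v, hst σ v hv⟩
    have hc' : c.val • v = σ • v := by
      rw [← Nat.cast_smul_eq_nsmul (ZMod 5), ZMod.natCast_zmod_val]
      exact congrArg Subtype.val hc
    exact ⟨c.val, (congrArg Subtype.val hc').symm⟩
  obtain ⟨t, b, c, ho, hΔt, ht, hrel⟩ :=
    exists_rat_val P.freyCurve hΔ0 (p := 5) (by norm_num) le_rfl haupt5
      (fun σ b c => by simp [haupt5, map_ofNat]) (fun b c ho => haupt5_next ho) (by decide)
      hQ hline
  have hj : P.freyCurve.c₄ ^ 3 * t = (t ^ 2 + 10 * t + 5) ^ 3 * P.freyCurve.Δ := by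
    refine (algebraMap ℚ Qbar).injective (mul_right_cancel₀ hΔt ?_)
    have e := j_five ho
    rw [ht] at e
    simp only [map_mul, map_add, map_pow, map_ofNat] at hrel ⊢
    linear_combination algebraMap ℚ Qbar t * hrel + algebraMap ℚ Qbar P.freyCurve.Δ * e
  obtain ⟨z, hz, hsq⟩ := exists_sq P hj
  have ht0 : t ≠ 0 := by intro e; rw [e] at hsq; norm_num at hsq
  set R := t ^ 2 + 4 * t - 1 with hR
  have hkey : (t ^ 2 + 22 * t + 125) * R ^ 2 = t * z ^ 2 := by rw [← hsq, hR]; ring
  have hR0 : R ≠ 0 := by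
    intro e
    rw [e] at hkey
    simp [ht0, hz] at hkey
  have := five_not_square (t := t) (y := t * z / R) (by
    field_simp
    linear_combination hkey)
  exact ht0 this

/-- `E[5]` of a Frey curve is irreducible. -/
theorem frey_irreducible_five (P : FreyPackage) : P.freyCurveInt.ModRepIsIrreducible 5 := by
  have h : Point.GaloisRepIsIrreducible (K := Qbar) ℚ P.freyCurve 5 := by
    refine ⟨?_, fun N hst => ?_⟩
    · obtain ⟨-, -, hΔ, hA, hB, hC, -⟩ := frey_invariants P
      have : P.freyCurve.IsElliptic := ⟨isUnit_iff_ne_zero.mpr (by rw [hΔ]; positivity)⟩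
      have : (P.freyCurve⁄Qbar).IsElliptic :=
        inferInstanceAs (P.freyCurve.map (algebraMap ℚ Qbar)).IsElliptic
      exact EC.Torsion.nontrivial_torsionBy P.freyCurve Qbar (Nat.cast_ne_zero.mpr (by norm_num))
        (by norm_num)
    · by_contra hcon
      push Not at hcon
      exact no_stable_line_five P N hst hcon.1 hcon.2
  rw [EC.Reducible.freyCurve_eq_map P] at h
  exact h

end Fermat.Agent.RootIrred
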