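import Fermat.Agent.RootIrred.InertiaAtP
import Fermat.Agent.RootIrred.Multiplicative

/-!
# The adjoint of an irreducible semistable `E[p]` is irreducible
-/

set_option autoImplicit false

noncomputable section

open WeierstrassCurve WeierstrassCurve.Affine.Point
open scoped WeierstrassCurve.Affine

namespace Fermat.Agent.RootIrred

open Fermat.Agent Matrix

local notation "Qbar" => AlgebraicClosure ℚ
local notation "ΓQ" => (AlgebraicClosure ℚ ≃ₐ[ℚ] AlgebraicClosure ℚ)

variable {W : WeierstrassCurve ℤ} {p : ℕ} [Fact p.Prime]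

/-- The kernel of the determinant. -/
def detKer (hΔ : W.Δ ≠ 0) : Subgroup ΓQ :=
  ((detMonoidHom (n := Fin 2) (R := ZMod p)).comp (mat (p := p) hΔ)).ker

theorem mem_detKer (hΔ : W.Δ ≠ 0) (g : ΓQ) :
    g ∈ detKer (p := p) hΔ ↔ (mat (p := p) hΔ g).det = 1 := Iff.rfl

theorem two_ne_zero_zmod (hp2 : p ≠ 2) : (2 : ZMod p) ≠ 0 := fun e => by
  have h := (ZMod.natCast_eq_zero_iff 2 p).1 (by exact_mod_cast e)
  exact hp2 ((Nat.prime_dvd_prime_iff_eq Fact.out Nat.prime_two).1 h)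

/-- An irreducible `E[p]` with a transvection in its image has irreducible adjoint. -/
theorem adjointIrreducible_of_transvection (hΔ : W.Δ ≠ 0) (hirr : W.ModRepIsIrreducible p)
    (hp2 : p ≠ 2) {g : ΓQ} (hsq : (mat (p := p) hΔ g - 1) * (mat hΔ g - 1) = 0)
    (hne : mat (p := p) hΔ g ≠ 1) : Root.AdjointIrreducible p W := by
  have : NeZero p := ⟨(Fact.out : p.Prime).ne_zero⟩
  refine adjointIrreducible_of_mat hΔ fun U hU hst => ?_
  exact eq_top_of_transvection (two_ne_zero_zmod hp2) (noEigen_of_irreducible hΔ hirr)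
    (H := detKer hΔ) (MonoidHom.normal_ker _) ((mem_detKer hΔ g).2 (trace_det_of_unipotent hsq).2)
    hsq hne hU fun h hh => hst h ((mem_detKer hΔ h).1 hh)

/-- An irreducible semistable `E[p]`, `p ≥ 5`, without transvection has irreducible adjoint. -/
theorem adjointIrreducible_of_noTransvection (hΔ : W.Δ ≠ 0) (hss : W.IsSemistableModel)
    (hirr : W.ModRepIsIrreducible p) (hp5 : 5 ≤ p) (hno : NoTransvection (p := p) hΔ) :
    Root.AdjointIrreducible p W := by
  have hp : p.Prime := Fact.out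
  have : NeZero p := ⟨hp.ne_zero⟩
  obtain ⟨A, hA⟩ := Gal.exists_liesOverPrime (L := Qbar) hp
  obtain ⟨s, hs, hns, htr, hts⟩ := exists_good hno hss hp5 hA
  obtain ⟨c, hc, hcdet⟩ := exists_conj_det (p := p) hΔ
  refine adjointIrreducible_of_mat hΔ fun U hU hst => ?_
  refine eq_top_of_inertia (two_ne_zero_zmod (by omega)) (noEigen_of_irreducible hΔ hirr)
    (H := detKer hΔ) (MonoidHom.normal_ker _) (I := A.inertiaSubgroupIn ℚ) (fun g => ?_)
    (fun σ hσ τ hτ => inertia_comm hno hA hσ hτ) hs hns htr hts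
    (fun K hK hker hI => eq_top_of_inertia_le hno hss hA K hK hker hI) hc hcdet hU
    fun h hh => hst h ((mem_detKer hΔ h).1 hh)
  obtain ⟨τ, hτ, e⟩ := exists_inertia_det_eq hno hss hA g
  refine ⟨g * τ⁻¹, ?_, τ, hτ, (inv_mul_cancel_right g τ).symm⟩
  rw [mem_detKer, map_mul, det_mul, ← e, ← det_mul, map_mul_inv_eq, det_one]

/-- A multiplicative prime `q ≠ p` with discriminant valuation prime to `p` gives a transvection. -/
theorem exists_transvection_of_not_dvd (hΔ : W.Δ ≠ 0) (hss : W.IsSemistableModel) {q : ℕ}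
    (hq : q.Prime) (hqp : q ≠ p) (hqΔ : (q : ℤ) ∣ W.Δ) (hv : ¬ p ∣ padicValInt q W.Δ) :
    ∃ g : ΓQ, (mat (p := p) hΔ g - 1) * (mat hΔ g - 1) = 0 ∧ mat (p := p) hΔ g ≠ 1 := by
  obtain ⟨A, hA⟩ := Gal.exists_liesOverPrime (L := Qbar) hq
  obtain ⟨σ, hσ, P, hP⟩ := exists_inertia_moves
    (Multiplicative.MultAt.mk hq hA hqΔ (hss q hq hqΔ) hΔ) Fact.out hqp hv
  exact ⟨σ, mat_unipotent hΔ hss hq hqp hA hσ, fun h => hP ((mat_eq_one_iff hΔ σ).1 h P)⟩

end Fermat.Agent.RootIrred
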