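import Fermat.Agent.RootIrred.Main

/-!
# The adjoint of an irreducible semistable `E[3]` is irreducible

Without a transvection the image is a `2`-group generated normally by inertia at `3`, hence equal
to that commutative image, which is impossible for an odd irreducible representation.
-/

set_option autoImplicit false

noncomputable section

open WeierstrassCurve

namespace Fermat.Agent.RootIrred

open Fermat.Agent Matrix

local notation "Qbar" => AlgebraicClosure ℚ
local notation "ΓQ" => (AlgebraicClosure ℚ ≃ₐ[ℚ] AlgebraicClosure ℚ)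

/-- In a finite nilpotent group a subgroup which generates normally is everything. -/
theorem eq_top_of_normalClosure_eq_top {G : Type*} [Group G] [Finite G] [Group.IsNilpotent G]
    {H : Subgroup G} (h : Subgroup.normalClosure (H : Set G) = ⊤) : H = ⊤ := by
  rcases eq_top_or_exists_le_coatom H with h' | ⟨M, hM, hHM⟩
  · exact h'
  · have := Subgroup.NormalizerCondition.normal_of_coatom M
      Group.normalizerCondition_of_isNilpotent hM
    exact absurd (top_le_iff.1 (h ▸ Subgroup.normalClosure_le_normal hHM)) hM.1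

variable {W : WeierstrassCurve ℤ} [Fact (Nat.Prime 3)]

/-- An irreducible semistable `E[3]` contains a transvection. -/
theorem exists_transvection_three (hΔ : W.Δ ≠ 0) (hss : W.IsSemistableModel)
    (hirr : W.ModRepIsIrreducible 3) :
    ∃ g : ΓQ, (mat (p := 3) hΔ g - 1) * (mat hΔ g - 1) = 0 ∧ mat (p := 3) hΔ g ≠ 1 := by
  classical
  by_contra hcon
  push Not at hcon
  have hno : NoTransvection (p := 3) hΔ := hcon
  obtain ⟨A, hA⟩ := Gal.exists_liesOverPrime (L := Qbar) Nat.prime_three
  set f := (mat (p := 3) hΔ).toHomUnits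
  have hfv : ∀ g, (f g : Matrix (Fin 2) (Fin 2) (ZMod 3)) = mat hΔ g := fun _ => rfl
  -- the image is a `2`-group
  have hG : IsPGroup 2 f.range := fun x => by
    obtain ⟨g, hg⟩ := x.2
    obtain ⟨n, hn, hgn⟩ := exists_pow_eq_one hno g
    have h1 : orderOf (x : GL (Fin 2) (ZMod 3)) ∣ n := orderOf_dvd_of_pow_eq_one (Units.ext (by
      rw [Units.val_pow_eq_pow_val, ← hg, hfv, hgn, Units.val_one]))
    have h2 : orderOf (x : GL (Fin 2) (ZMod 3)) ∣ 48 := by
      have h := orderOf_dvd_natCard (x : GL (Fin 2) (ZMod 3))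
      rw [Matrix.card_GL_field, Fin.prod_univ_two, ZMod.card] at h
      norm_num at h ⊢
      exact h
    have h3 : Nat.Coprime (orderOf (x : GL (Fin 2) (ZMod 3))) 3 :=
      ((Nat.prime_three.coprime_iff_not_dvd.2 fun h => hn (h.trans h1))).symm
    refine ⟨4, Subtype.ext ?_⟩
    rw [SubmonoidClass.coe_pow, OneMemClass.coe_one]
    exact orderOf_dvd_iff_pow_eq_one.1 (h3.dvd_of_dvd_mul_right (m := 2 ^ 4)
      (by norm_num at h2 ⊢; exact h2))
  have hnil : Group.IsNilpotent f.range :=
    haveI : Fact (Nat.Prime 2) := ⟨Nat.prime_two⟩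
    hG.isNilpotent
  -- it is the image of inertia at `3`
  set H := (A.inertiaSubgroupIn ℚ).map f.rangeRestrict
  have hHtop : H = ⊤ := by
    refine eq_top_of_normalClosure_eq_top (top_le_iff.1 fun y _ => ?_)
    obtain ⟨g, rfl⟩ := f.rangeRestrict_surjective y
    have hK := eq_top_of_inertia_le hno hss hA
      ((Subgroup.normalClosure (H : Set f.range)).comap f.rangeRestrict) inferInstance
      (fun g hg => by
        rw [Subgroup.mem_comap, show f.rangeRestrict g = 1 from
          Subtype.ext (Units.ext ((hfv g).trans hg))]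
        exact one_mem _)
      fun τ hτ => Subgroup.subset_normalClosure ⟨τ, hτ, rfl⟩
    exact show g ∈ ((Subgroup.normalClosure (H : Set f.range)).comap f.rangeRestrict) from
      hK ▸ Subgroup.mem_top g
  have himg : ∀ g, ∃ τ ∈ A.inertiaSubgroupIn ℚ, mat (p := 3) hΔ τ = mat hΔ g := fun g => by
    obtain ⟨τ, hτ, hτg⟩ := (hHtop ▸ Subgroup.mem_top (f.rangeRestrict g) : f.rangeRestrict g ∈ H)
    exact ⟨τ, hτ, congrArg Units.val (congrArg Subtype.val hτg)⟩
  obtain ⟨c, hc, hcdet⟩ := exists_conj_det (p := 3) hΔ
  refine not_commutative (two_ne_zero_zmod (by norm_num)) (noEigen_of_irreducible hΔ hirr) hc hcdet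
    fun g g' => ?_
  obtain ⟨τ, hτ, hτg⟩ := himg g
  obtain ⟨τ', hτ', hτg'⟩ := himg g'
  rw [← hτg, ← hτg']
  exact inertia_comm hno hA hτ hτ'

/-- **The adjoint of an irreducible semistable `E[3]` is irreducible.** -/
theorem adjointIrreducible_three_of_irreducible (hΔ : W.Δ ≠ 0) (hss : W.IsSemistableModel)
    (hirr : W.ModRepIsIrreducible 3) : Root.AdjointIrreducible 3 W := by
  obtain ⟨g, hsq, hne⟩ := exists_transvection_three hΔ hss hirr
  exact adjointIrreducible_of_transvection hΔ hirr (by norm_num) hsq hne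

end Fermat.Agent.RootIrred
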