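import Fermat.Agent.RootIrred.TwoByTwo

/-!
# Irreducibility of the trace zero part of an irreducible two-dimensional representation

Two criteria: a transvection in the normal subgroup `H`, or a subgroup `I` with commutative image
which together with `H` generates, contains a suitable element `s`, and generates normally.
-/

set_option autoImplicit false

namespace Fermat.Agent.RootIrred

open Matrix

variable {k : Type*} [Field k] {Γ : Type*} [Group Γ] {R : Γ →* Matrix (Fin 2) (Fin 2) k}

local notation "M₂" => Matrix (Fin 2) (Fin 2) k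

/-- The line of `x` is stable under conjugation by `H`. -/
def LineStable (R : Γ →* M₂) (H : Subgroup Γ) (x : M₂) : Prop :=
  ∀ h ∈ H, ∃ c : k, R h * x = c • (x * R h)

/-- No common eigenvector. -/
def NoEigen (R : Γ →* M₂) : Prop :=
  ∀ v : Fin 2 → k, v ≠ 0 → ∃ g, ∀ μ : k, R g *ᵥ v ≠ μ • v

theorem map_mul_inv_eq (g : Γ) : R g * R g⁻¹ = 1 := by rw [← map_mul, mul_inv_cancel, map_one]

theorem map_inv_mul_eq (g : Γ) : R g⁻¹ * R g = 1 := by rw [← map_mul, inv_mul_cancel, map_one]

theorem det_ne_zero (g : Γ) : (R g).det ≠ 0 := fun h => by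
  have := congrArg Matrix.det (map_mul_inv_eq (R := R) g)
  rw [Matrix.det_mul, h, zero_mul, Matrix.det_one] at this
  exact zero_ne_one this

theorem mulVec_ne_zero {g : Γ} {v : Fin 2 → k} (hv : v ≠ 0) : R g *ᵥ v ≠ 0 := fun h => hv (by
  have := congrArg (R g⁻¹ *ᵥ ·) h
  simp only [Matrix.mulVec_mulVec, map_inv_mul_eq, Matrix.one_mulVec, Matrix.mulVec_zero] at this
  exact this)

/-- Conjugation by `R g`. -/
def conjBy (R : Γ →* M₂) (g : Γ) (x : M₂) : M₂ := R g * x * R g⁻¹

theorem conjBy_mul (g : Γ) (x y : M₂) : conjBy R g (x * y) = conjBy R g x * conjBy R g y := by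
  simp only [conjBy, mul_assoc]
  rw [← mul_assoc (R g⁻¹) (R g), map_inv_mul_eq, one_mul]

theorem trace_conjBy (g : Γ) (x : M₂) : (conjBy R g x).trace = x.trace := by
  rw [conjBy, Matrix.trace_mul_comm, ← mul_assoc, map_inv_mul_eq, one_mul]

theorem conjBy_mul_right (g : Γ) (x : M₂) : conjBy R g x * R g = R g * x := by
  rw [conjBy, mul_assoc, map_inv_mul_eq, mul_one]

theorem LineStable.conjBy {H : Subgroup Γ} (hH : H.Normal) {x : M₂} (hx : LineStable R H x)
    (g : Γ) : LineStable R H (RootIrred.conjBy R g x) := by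
  intro h hh
  obtain ⟨c, hc⟩ := hx (g⁻¹ * h * g) (by simpa using hH.conj_mem h hh g⁻¹)
  refine ⟨c, ?_⟩
  have hc' := congrArg (RootIrred.conjBy R g) hc
  rw [conjBy_mul] at hc'
  have e : RootIrred.conjBy R g (R (g⁻¹ * h * g)) = R h := by
    rw [RootIrred.conjBy, ← map_mul, ← map_mul]
    congr 1
    group
  rw [e] at hc'
  rw [hc', RootIrred.conjBy, RootIrred.conjBy, mul_smul_comm, smul_mul_assoc, ← mul_assoc]
  congr 1
  conv_rhs => rw [← e, RootIrred.conjBy]
  simp only [mul_assoc]
  rw [← mul_assoc (R g⁻¹) (R g), map_inv_mul_eq, one_mul]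

/-- The sign of a semisimple stable line. -/
theorem sign_of_stable {g : Γ} {x : M₂} (hd : x.det ≠ 0) {c : k}
    (h : R g * x = c • (x * R g)) : R g * x = x * R g ∨ R g * x = -(x * R g) := by
  have e := congrArg Matrix.det h
  rw [Matrix.det_smul, Fintype.card_fin, Matrix.det_mul, Matrix.det_mul] at e
  have hc : (c - 1) * (c + 1) = 0 := by
    refine (mul_eq_zero.1 (show ((c - 1) * (c + 1)) * (x.det * (R g).det) = 0 by
      linear_combination -e)).resolve_right (mul_ne_zero hd (det_ne_zero g))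
  rcases mul_eq_zero.1 hc with h1 | h1
  · exact Or.inl (by rw [h, sub_eq_zero.1 h1, one_smul])
  · exact Or.inr (by rw [h, eq_neg_of_add_eq_zero_left h1, neg_smul, one_smul])

/-- An element stabilising a nilpotent line fixes its kernel. -/
theorem eigen_of_nilpotent {g : Γ} {x : M₂} (hx : x ≠ 0) {v : Fin 2 → k} (hv : v ≠ 0)
    (hxv : x *ᵥ v = 0) {c : k} (hc : R g * x = c • (x * R g)) : ∃ μ : k, R g *ᵥ v = μ • v := by
  refine exists_smul_of_mulVec_eq_zero hx hv hxv ?_
  have hc0 : c ≠ 0 := fun h0 => hx (by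
    rw [h0, zero_smul] at hc
    have := congrArg (R g⁻¹ * ·) hc
    simpa [← mul_assoc, map_inv_mul_eq] using this)
  have e := congrArg (· *ᵥ v) hc
  simp only [← Matrix.mulVec_mulVec, Matrix.smul_mulVec, hxv, Matrix.mulVec_zero] at e
  exact (smul_eq_zero.1 e.symm).resolve_left hc0

/-- A stable nilpotent line gives an eigenvector. -/
theorem exists_eigen_of_nilpotent {H : Subgroup Γ} {x : M₂} (hx : x ≠ 0) (hd : x.det = 0)
    (hst : LineStable R H x) :
    ∃ v : Fin 2 → k, v ≠ 0 ∧ x *ᵥ v = 0 ∧ ∀ h ∈ H, ∃ μ : k, R h *ᵥ v = μ • v := by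
  obtain ⟨v, hv, hxv⟩ := Matrix.exists_mulVec_eq_zero_iff.2 hd
  exact ⟨v, hv, hxv, fun h hh => (hst h hh).elim fun _ hc => eigen_of_nilpotent hx hv hxv hc⟩

/-- A proper stable subspace of trace zero matrices gives a stable line. -/
theorem exists_line (h2 : (2 : k) ≠ 0) {H : Subgroup Γ} {U : Submodule k M₂}
    (hU : ∀ x ∈ U, x.trace = 0) (hst : ∀ h ∈ H, ∀ x ∈ U, conjBy R h x ∈ U) (hne : U ≠ ⊥)
    {z : M₂} (hz : z.trace = 0) (hzU : z ∉ U) :
    ∃ x : M₂, x ≠ 0 ∧ x.trace = 0 ∧ LineStable R H x := by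
  obtain ⟨u, hu, hu0⟩ := Submodule.exists_mem_ne_zero_of_ne_bot hne
  by_cases hone : ∀ v ∈ U, v ∈ Submodule.span k {u}
  · refine ⟨u, hu0, hU u hu, fun h hh => ?_⟩
    obtain ⟨c, hc⟩ := Submodule.mem_span_singleton.1 (hone _ (hst h hh u hu))
    exact ⟨c, by rw [← smul_mul_assoc, hc, conjBy_mul_right]⟩
  push Not at hone
  obtain ⟨v, hv, hvu⟩ := hone
  have hw : u * v - v * u ≠ 0 := fun h => by
    obtain ⟨c, hc⟩ := exists_smul_of_commute h2 hu0 (hU u hu) (hU v hv) (sub_eq_zero.1 h)
    exact hvu (Submodule.mem_span_singleton.2 ⟨c, hc.symm⟩)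
  by_cases htwo : ∀ w ∈ U, w ∈ Submodule.span k {u, v}
  · refine ⟨_, hw, by rw [Matrix.trace_sub, Matrix.trace_mul_comm, sub_self], fun h hh => ?_⟩
    obtain ⟨α, β, hα⟩ := Submodule.mem_span_pair.1 (htwo _ (hst h hh u hu))
    obtain ⟨γ, δ, hγ⟩ := Submodule.mem_span_pair.1 (htwo _ (hst h hh v hv))
    refine ⟨α * δ - β * γ, ?_⟩
    have e : conjBy R h (u * v - v * u) = (α * δ - β * γ) • (u * v - v * u) := by
      have es : conjBy R h (u * v - v * u) = conjBy R h (u * v) - conjBy R h (v * u) := by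
        simp only [conjBy, mul_sub, sub_mul]
      rw [es, conjBy_mul, conjBy_mul, ← hα, ← hγ]
      simp only [mul_add, add_mul, smul_mul_assoc, mul_smul_comm]
      module
    rw [← smul_mul_assoc, ← e, conjBy_mul_right]
  push Not at htwo
  obtain ⟨w, hwU, hw2⟩ := htwo
  exfalso
  let Φ : M₂ →ₗ[k] (Fin 3 → k) :=
    LinearMap.pi ![Matrix.entryLinearMap k k 0 0, Matrix.entryLinearMap k k 0 1,
      Matrix.entryLinearMap k k 1 0]
  have hinj : ∀ x : M₂, x.trace = 0 → Φ x = 0 → x = 0 := fun x hx h => by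
    have h0 := congrFun h 0
    have h1 := congrFun h 1
    have h2' := congrFun h 2
    simp [Φ] at h0 h1 h2'
    ext i j
    fin_cases i <;> fin_cases j <;> simp [h0, h1, h2', trace0_entry hx]
  have hinjU : Function.Injective (Φ.comp U.subtype) := by
    rw [← LinearMap.ker_eq_bot, LinearMap.ker_eq_bot']
    exact fun x hx => Subtype.ext (hinj x (hU x x.2) hx)
  have s1 : Submodule.span k {u} < Submodule.span k {u, v} :=
    lt_of_le_of_ne (Submodule.span_mono (by simp)) fun h =>
      hvu (h ▸ Submodule.subset_span (by simp))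
  have s2 : Submodule.span k {u, v} < U :=
    lt_of_le_of_ne (Submodule.span_le.2 (by simp [Set.insert_subset_iff, hu, hv])) fun h =>
      hw2 (h ▸ hwU)
  have h3 : 3 ≤ Module.finrank k U := by
    have := finrank_span_singleton (K := k) hu0
    have := Submodule.finrank_lt_finrank_of_lt s1
    have := Submodule.finrank_lt_finrank_of_lt s2
    omega
  have htop : LinearMap.range (Φ.comp U.subtype) = ⊤ := by
    refine Submodule.eq_top_of_finrank_eq (le_antisymm (Submodule.finrank_le _) ?_)
    rw [LinearMap.finrank_range_of_inj hinjU, Module.finrank_fin_fun]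
    exact h3
  obtain ⟨x, hx⟩ := LinearMap.range_eq_top.1 htop (Φ z)
  refine hzU ?_
  have : (x : M₂) - z = 0 := hinj _ (by rw [Matrix.trace_sub, hU x x.2, hz, sub_self])
    (by rw [map_sub, ← hx]; exact sub_self _)
  exact sub_eq_zero.1 this ▸ x.2

/-- **Transvection criterion.** -/
theorem eq_top_of_transvection (h2 : (2 : k) ≠ 0) (hno : NoEigen R) {H : Subgroup Γ}
    (hH : H.Normal) {t : Γ} (ht : t ∈ H) (hsq : (R t - 1) * (R t - 1) = 0) (ht1 : R t ≠ 1)
    {U : Submodule k M₂} (hU : ∀ x ∈ U, x.trace = 0)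
    (hst : ∀ h ∈ H, ∀ x ∈ U, conjBy R h x ∈ U) :
    U = ⊥ ∨ ∀ x : M₂, x.trace = 0 → x ∈ U := by
  by_contra hcon
  push Not at hcon
  obtain ⟨hne, z, hz, hzU⟩ := hcon
  obtain ⟨x, hx0, hxt, hxst⟩ := exists_line h2 hU hst hne hz hzU
  obtain ⟨htr, -⟩ := trace_det_of_unipotent hsq
  set n := R t - 1 with hn
  have hn0 : n ≠ 0 := sub_ne_zero.2 ht1
  by_cases hd : x.det = 0
  · obtain ⟨v, hv, -, heig⟩ := exists_eigen_of_nilpotent hx0 hd hxst
    have hker : ∀ w : Fin 2 → k, w ≠ 0 → (∃ μ : k, R t *ᵥ w = μ • w) → n *ᵥ w = 0 := by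
      intro w hw0 ⟨μ, hμ⟩
      have e : n *ᵥ w = (μ - 1) • w := by
        rw [hn, Matrix.sub_mulVec, hμ, Matrix.one_mulVec, sub_smul, one_smul]
      have e2 : (n * n) *ᵥ w = ((μ - 1) * (μ - 1)) • w := by
        rw [← Matrix.mulVec_mulVec, e, Matrix.mulVec_smul, e, smul_smul]
      rw [hsq, Matrix.zero_mulVec] at e2
      rw [e, mul_self_eq_zero.1 ((smul_eq_zero.1 e2.symm).resolve_right hw0), zero_smul]
    obtain ⟨g, hg⟩ := hno v hv
    refine (fun ⟨μ, hμ⟩ => hg μ hμ) (exists_smul_of_mulVec_eq_zero hn0 hv (hker v hv (heig t ht))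
      (hker _ (mulVec_ne_zero hv) ?_))
    obtain ⟨μ, hμ⟩ := heig (g⁻¹ * t * g) (by simpa using hH.conj_mem t ht g⁻¹)
    refine ⟨μ, ?_⟩
    have := congrArg (R g *ᵥ ·) hμ
    simp only [Matrix.mulVec_mulVec, Matrix.mulVec_smul, ← map_mul] at this
    rwa [show g * (g⁻¹ * t * g) = t * g by group, map_mul, ← Matrix.mulVec_mulVec] at this
  · obtain ⟨c, hc⟩ := hxst t ht
    rcases sign_of_stable hd hc with h | h
    · obtain ⟨α, β, rfl⟩ := exists_of_commute (m := R t) (fun a ha => by
        rw [ha, Matrix.trace_smul, Matrix.trace_one] at htr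
        have : (a - 1) * 2 = 0 := by
          simp at htr
          linear_combination htr
        exact ht1 (by rw [ha, sub_eq_zero.1 ((mul_eq_zero.1 this).resolve_right h2), one_smul])) h
      rw [Matrix.trace_add, Matrix.trace_smul, Matrix.trace_smul, htr, Matrix.trace_one] at hxt
      have hαβ : (α + β) * 2 = 0 := by
        simp at hxt
        linear_combination hxt
      apply hd
      rw [eq_neg_of_add_eq_zero_left ((mul_eq_zero.1 hαβ).resolve_right h2), neg_smul,
        neg_add_eq_sub, ← smul_sub, Matrix.det_smul]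
      have hd0 : (R t - 1).det = 0 := by
        have := congrArg Matrix.det hsq
        rw [hn, Matrix.det_mul, Matrix.det_zero] at this
        exact mul_self_eq_zero.1 this
      rw [hd0, mul_zero]
    · exact hx0 (eq_zero_of_anticomm h2 hxt (by rw [htr]; exact h2) h)

section Inertia

variable {H I : Subgroup Γ} (h2 : (2 : k) ≠ 0) (hno : NoEigen R) (hH : H.Normal)
  (hgen : ∀ g, ∃ h ∈ H, ∃ τ ∈ I, g = h * τ)
  (hI : ∀ σ ∈ I, ∀ τ ∈ I, R σ * R τ = R τ * R σ) {s : Γ} (hs : s ∈ I)
  (hns : ∀ a : k, R s ≠ a • 1) (htr : (R s).trace ≠ 0)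
  (hts : (R s).trace ^ 2 ≠ (R s).det)
  (hmin : ∀ K : Subgroup Γ, K.Normal → (∀ g, R g = 1 → g ∈ K) → I ≤ K → K = ⊤)
  {c : Γ} (hc : R c * R c = 1) (hcdet : (R c).det = -1)

include h2 hno hc hcdet in
/-- The image is not commutative. -/
theorem not_commutative (hcomm : ∀ g g' : Γ, R g * R g' = R g' * R g) : False := by
  have hne : ∀ a : k, R c ≠ a • 1 := fun a ha => by
    have e1 := hc
    have e2 := hcdet
    rw [ha] at e1 e2
    rw [Matrix.det_smul, Fintype.card_fin, Matrix.det_one, mul_one] at e2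
    rw [smul_mul_smul_comm, one_mul] at e1
    have e3 := congrFun (congrFun e1 0) 0
    simp at e3
    exact h2 (by linear_combination e2 - e3)
  have ht0 : (R c).trace = 0 := by
    have e := sq_eq (R c)
    rw [hc, hcdet, neg_smul, one_smul, sub_neg_eq_add, right_eq_add] at e
    exact (smul_eq_zero.1 e).resolve_right fun h => by simp [h] at hc
  have hd : (R c - 1).det = 0 := by rw [det_sub_one, hcdet, ht0]; ring
  obtain ⟨v, hv, hcv⟩ := Matrix.exists_mulVec_eq_zero_iff.2 hd
  obtain ⟨g, hg⟩ := hno v hv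
  refine (fun ⟨μ, hμ⟩ => hg μ hμ) (exists_smul_of_mulVec_eq_zero
    (sub_ne_zero.2 fun h => hne 1 (by rw [h, one_smul])) hv hcv ?_)
  rw [Matrix.mulVec_mulVec, sub_mul, one_mul, hcomm c g,
    show R g * R c - R g = R g * (R c - 1) by rw [mul_sub, mul_one], ← Matrix.mulVec_mulVec, hcv,
    Matrix.mulVec_zero]

include h2 hno hgen hI hc hcdet in
theorem not_scalar (hscal : ∀ h ∈ H, ∃ a : k, R h = a • 1) : False := by
  refine not_commutative h2 hno hc hcdet fun g g' => ?_
  obtain ⟨h, hh, τ, hτ, rfl⟩ := hgen g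
  obtain ⟨h', hh', τ', hτ', rfl⟩ := hgen g'
  obtain ⟨a, ha⟩ := hscal h hh
  obtain ⟨a', ha'⟩ := hscal h' hh'
  rw [map_mul, map_mul, ha, ha', smul_one_mul, smul_one_mul, smul_mul_smul_comm,
    smul_mul_smul_comm, hI τ hτ τ' hτ', mul_comm a]

include hgen hI hs hns hno in
/-- No common eigenvector of `H` and `s`. -/
theorem not_eigen_pair {v : Fin 2 → k} (hv : v ≠ 0)
    (hH' : ∀ h ∈ H, ∃ μ : k, R h *ᵥ v = μ • v) (hsv : ∃ μ : k, R s *ᵥ v = μ • v) : False := by
  obtain ⟨g, hg⟩ := hno v hv
  obtain ⟨h, hh, τ, hτ, rfl⟩ := hgen g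
  obtain ⟨μ, hμ⟩ := hsv
  obtain ⟨ν, hν⟩ : ∃ ν : k, R τ *ᵥ v = ν • v := by
    refine exists_smul_of_mulVec_eq_zero (n := R s - μ • 1) (sub_ne_zero.2 (hns μ)) hv
      (by rw [Matrix.sub_mulVec, hμ, Matrix.smul_mulVec, Matrix.one_mulVec, sub_self]) ?_
    rw [Matrix.sub_mulVec, Matrix.mulVec_mulVec, hI s hs τ hτ, ← Matrix.mulVec_mulVec, hμ,
      Matrix.mulVec_smul, Matrix.smul_mulVec, Matrix.one_mulVec, sub_self]
  obtain ⟨ρ, hρ⟩ := hH' h hh
  exact hg (ν * ρ) (by rw [map_mul, ← Matrix.mulVec_mulVec, hν, Matrix.mulVec_smul, hρ, smul_smul])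

include h2 hno hH hgen hI hs hns htr hmin hc hcdet

omit hH in
/-- No line stable under `H` and `s`. -/
theorem not_axis {y : M₂} (hy : y ≠ 0) (hyt : y.trace = 0) (hst : LineStable R H y) {a : k}
    (hsy : R s * y = a • (y * R s)) : False := by
  by_cases hd : y.det = 0
  · obtain ⟨v, hv, hyv, heig⟩ := exists_eigen_of_nilpotent hy hd hst
    exact not_eigen_pair hno hgen hI hs hns hv heig (eigen_of_nilpotent hy hv hyv hsy)
  · obtain h | h := sign_of_stable hd hsy
    · obtain ⟨α, β, hyE⟩ := exists_of_commute hns h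
      have hτy : ∀ τ ∈ I, R τ * y = y * R τ := fun τ hτ => by
        rw [hyE, mul_add, add_mul, mul_smul_comm, smul_mul_assoc, mul_one, one_mul, mul_smul_comm,
          smul_mul_assoc, hI τ hτ s hs]
      have hsign : ∀ g, R g * y = y * R g ∨ R g * y = -(y * R g) := fun g => by
        obtain ⟨h', hh', τ, hτ, rfl⟩ := hgen g
        obtain ⟨b, hb⟩ := hst h' hh'
        have e := hτy τ hτ
        rcases sign_of_stable hd hb with h'' | h''
        · left; rw [map_mul, mul_assoc, e, ← mul_assoc, h'', mul_assoc]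
        · right; rw [map_mul, mul_assoc, e, ← mul_assoc, h'', neg_mul, mul_assoc]
      let K : Subgroup Γ :=
        { carrier := {g | R g * y = y * R g}
          one_mem' := by simp
          mul_mem' := fun {g g'} (e : _ = _) (e' : _ = _) => by
            show R (g * g') * y = y * R (g * g')
            rw [map_mul, mul_assoc, e', ← mul_assoc, e, mul_assoc]
          inv_mem' := fun {g} (e : _ = _) => by
            show R g⁻¹ * y = y * R g⁻¹
            have := congrArg (fun m => R g⁻¹ * m * R g⁻¹) e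
            simp only [mul_assoc, map_mul_inv_eq, mul_one] at this
            rwa [← mul_assoc (R g⁻¹) (R g), map_inv_mul_eq, one_mul, eq_comm] at this }
      have hK : K.Normal := ⟨fun n (hn : _ = _) g => by
        show R (g * n * g⁻¹) * y = y * R (g * n * g⁻¹)
        have e1 : R g * R g⁻¹ = 1 := map_mul_inv_eq g
        have e2 : R g⁻¹ * R g = 1 := map_inv_mul_eq g
        rcases hsign g with e | e
        · have e' : R g⁻¹ * y = y * R g⁻¹ := by
            have := congrArg (fun m => R g⁻¹ * m * R g⁻¹) e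
            simp only [mul_assoc, e1, mul_one] at this
            rw [← mul_assoc (R g⁻¹) (R g), e2, one_mul] at this
            exact this.symm
          rw [map_mul, map_mul, mul_assoc, e', ← mul_assoc, mul_assoc (R g), hn, ← mul_assoc, e]
          simp only [mul_assoc]
        · have e' : R g⁻¹ * y = -(y * R g⁻¹) := by
            have := congrArg (fun m => R g⁻¹ * m * R g⁻¹) e
            simp only [mul_assoc, e1, mul_one, mul_neg, neg_mul] at this
            rw [← mul_assoc (R g⁻¹) (R g), e2, one_mul] at this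
            rw [this, neg_neg]
          rw [map_mul, map_mul, mul_assoc, e', mul_neg, ← mul_assoc, mul_assoc (R g), hn,
            ← mul_assoc, e]
          simp only [neg_mul, neg_neg, mul_assoc]⟩
      have hKtop := hmin K hK (fun g hg => by show _ = _; rw [hg, one_mul, mul_one])
        (fun τ hτ => hτy τ hτ)
      have hall : ∀ g, R g * y = y * R g := fun g =>
        show g ∈ K from hKtop ▸ Subgroup.mem_top g
      have hyns : ∀ a : k, y ≠ a • 1 := fun a ha => hy (by
        rw [ha, Matrix.trace_smul, Matrix.trace_one] at hyt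
        have : a * 2 = 0 := by simpa using hyt
        rw [ha, (mul_eq_zero.1 this).resolve_right h2, zero_smul])
      refine not_commutative h2 hno hc hcdet fun g g' => ?_
      obtain ⟨α', β', e⟩ := exists_of_commute hyns (hall g).symm
      rw [e, mul_add, add_mul, mul_smul_comm, smul_mul_assoc, mul_one, one_mul, mul_smul_comm,
        smul_mul_assoc, hall g']
    · exact hy (eq_zero_of_anticomm h2 hyt htr h)

/-- No nonzero trace zero matrix commutes with the image of `H`. -/
theorem not_central {w : M₂} (hw : w ≠ 0) (hwt : w.trace = 0)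
    (hcom : ∀ h ∈ H, R h * w = w * R h) : False := by
  by_cases hscal : ∀ h ∈ H, ∃ a : k, R h = a • 1
  · exact not_scalar h2 hno hgen hI hc hcdet hscal
  push Not at hscal
  obtain ⟨h₀, hh₀, hne⟩ := hscal
  obtain ⟨α, β, hwE⟩ := exists_of_commute hne (hcom h₀ hh₀)
  have hst : LineStable R H w := fun h hh => ⟨1, by rw [hcom h hh, one_smul]⟩
  have hst' : R h₀ * conjBy R s w = conjBy R s w * R h₀ := by
    have e := hcom (s⁻¹ * h₀ * s) (by simpa using hH.conj_mem h₀ hh₀ s⁻¹)
    have e' := congrArg (conjBy R s) e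
    rw [conjBy_mul, conjBy_mul] at e'
    have e'' : conjBy R s (R (s⁻¹ * h₀ * s)) = R h₀ := by
      rw [conjBy, ← map_mul, ← map_mul]
      congr 1
      group
    rwa [e''] at e'
  obtain ⟨α', β', hwE'⟩ := exists_of_commute hne hst'
  have hwt' : (conjBy R s w).trace = 0 := (trace_conjBy s w).trans hwt
  rw [hwE', Matrix.trace_add, Matrix.trace_smul, Matrix.trace_smul, Matrix.trace_one] at hwt'
  rw [hwE, Matrix.trace_add, Matrix.trace_smul, Matrix.trace_smul, Matrix.trace_one] at hwt
  simp only [Fintype.card_fin, Nat.cast_ofNat, smul_eq_mul] at hwt hwt'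
  have hβ : β ≠ 0 := fun hb => hw (by
    rw [hb, zero_mul, add_zero] at hwt
    rw [hwE, hb, (mul_eq_zero.1 hwt).resolve_right h2, zero_smul, zero_smul, add_zero])
  have hrel : α' = β' / β * α := by
    have e : α' * β - β' * α = 0 := (mul_eq_zero.1 (show (α' * β - β' * α) * 2 = 0 by
      linear_combination β * hwt' - β' * hwt)).resolve_right h2
    field_simp
    linear_combination e
  have e : conjBy R s w = (β' / β) • w := by
    rw [hwE', hwE, smul_add, smul_smul, smul_smul, ← hrel, div_mul_cancel₀ _ hβ]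
  exact not_axis h2 hno hgen hI hs hns htr hmin hc hcdet hw
    (by rw [hwE, Matrix.trace_add, Matrix.trace_smul, Matrix.trace_smul, Matrix.trace_one]
        simpa using hwt) hst
    (a := β' / β) (by rw [← smul_mul_assoc, ← e, conjBy_mul_right])

/-- No pair of stable semisimple lines which are not orthogonal. -/
theorem not_pair {x x' : M₂} (hst : LineStable R H x) (hst' : LineStable R H x')
    (hxx : (x * x').trace ≠ 0) (hind : x * x' ≠ x' * x) : False := by
  refine not_central h2 hno hH hgen hI hs hns htr hmin hc hcdet (sub_ne_zero.2 hind)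
    (by rw [Matrix.trace_sub, Matrix.trace_mul_comm, sub_self]) fun h hh => ?_
  obtain ⟨a, ha⟩ := hst h hh
  obtain ⟨b, hb⟩ := hst' h hh
  have e1 : R h * (x * x') = (a * b) • (x * x' * R h) := by
    rw [← mul_assoc, ha, smul_mul_assoc, mul_assoc, hb, mul_smul_comm, ← mul_assoc, smul_smul]
  have e2 : R h * (x' * x) = (a * b) • (x' * x * R h) := by
    rw [← mul_assoc, hb, smul_mul_assoc, mul_assoc, ha, mul_smul_comm, ← mul_assoc, smul_smul,
      mul_comm b]
  have hab : a * b = 1 := by
    have e3 : conjBy R h (x * x') = (a * b) • (x * x') := by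
      rw [conjBy, e1, smul_mul_assoc, mul_assoc, map_mul_inv_eq, mul_one]
    have e4 := congrArg Matrix.trace e3
    rw [trace_conjBy, Matrix.trace_smul, smul_eq_mul] at e4
    exact mul_right_cancel₀ hxx (by rw [one_mul, ← e4])
  rw [hab, one_smul] at e1 e2
  rw [mul_sub, sub_mul, e1, e2]

include hts in
/-- **Inertia criterion.** -/
theorem eq_top_of_inertia {U : Submodule k M₂} (hU : ∀ x ∈ U, x.trace = 0)
    (hst : ∀ h ∈ H, ∀ x ∈ U, conjBy R h x ∈ U) :
    U = ⊥ ∨ ∀ x : M₂, x.trace = 0 → x ∈ U := by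
  by_contra hcon
  push Not at hcon
  obtain ⟨hne, z, hz, hzU⟩ := hcon
  obtain ⟨x, hx0, hxt, hxst⟩ := exists_line h2 hU hst hne hz hzU
  have hdet := det_ne_zero (R := R) s
  by_cases hd : x.det = 0
  · obtain ⟨v, hv, -, heig⟩ := exists_eigen_of_nilpotent hx0 hd hxst
    by_cases hsv : ∃ μ : k, R s *ᵥ v = μ • v
    · exact not_eigen_pair hno hgen hI hs hns hv heig hsv
    push Not at hsv
    refine not_scalar h2 hno hgen hI hc hcdet fun h hh => ?_
    have hmove : ∀ {u : Fin 2 → k}, (∀ h ∈ H, ∃ μ : k, R h *ᵥ u = μ • u) →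
        ∀ h ∈ H, ∃ μ : k, R h *ᵥ (R s *ᵥ u) = μ • (R s *ᵥ u) := by
      intro u hu h hh
      obtain ⟨μ, hμ⟩ := hu (s⁻¹ * h * s) (by simpa using hH.conj_mem h hh s⁻¹)
      refine ⟨μ, ?_⟩
      rw [← Matrix.mulVec_smul, ← hμ, Matrix.mulVec_mulVec, Matrix.mulVec_mulVec, ← map_mul,
        ← map_mul]
      congr 2
      group
    obtain ⟨a, ha⟩ := heig h hh
    obtain ⟨b, hb⟩ := hmove heig h hh
    obtain ⟨μ, hμ⟩ := hmove (hmove heig) h hh
    have e : R s *ᵥ (R s *ᵥ v) = (R s).trace • (R s *ᵥ v) - (R s).det • v := by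
      rw [Matrix.mulVec_mulVec, sq_eq, Matrix.sub_mulVec, Matrix.smul_mulVec,
        Matrix.smul_mulVec, Matrix.one_mulVec]
    rw [e, Matrix.mulVec_sub, Matrix.mulVec_smul, Matrix.mulVec_smul, hb, ha, smul_sub,
      smul_smul, smul_smul, smul_smul, smul_smul] at hμ
    obtain ⟨e1, e2⟩ := eq_zero_of_indep hv hsv
      (α := μ * (R s).det - (R s).det * a) (β := (R s).trace * b - μ * (R s).trace) (by
        rw [sub_smul, sub_smul]
        linear_combination (norm := module) hμ)
    have hab : a = b := by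
      have h1 : μ = a := mul_right_cancel₀ hdet (by linear_combination e1)
      have h3 : μ = b := mul_right_cancel₀ htr (by linear_combination -e2)
      rw [← h1, h3]
    refine ⟨a, eq_of_mulVec_eq hv hsv ?_ ?_⟩
    · rw [ha, Matrix.smul_mulVec, Matrix.one_mulVec]
    · rw [hb, hab, Matrix.smul_mulVec, Matrix.one_mulVec]
  set f := conjBy R s with hf
  have htf : ∀ y : M₂, (f y).trace = y.trace := trace_conjBy s
  have hstf : LineStable R H (f x) := hxst.conjBy hH s
  have hstff : LineStable R H (f (f x)) := hstf.conjBy hH s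
  have hnax : ∀ a : k, f x ≠ a • x := fun a ha =>
    not_axis h2 hno hgen hI hs hns htr hmin hc hcdet hx0 hxt hxst (a := a)
      (by rw [← smul_mul_assoc, ← ha, hf, conjBy_mul_right])
  have hind : x * f x ≠ f x * x := fun h => by
    obtain ⟨a, ha⟩ := exists_smul_of_commute h2 hx0 hxt (by rw [htf, hxt]) h
    exact hnax a ha
  by_cases h01 : (x * f x).trace = 0
  swap
  · exact not_pair h2 hno hH hgen hI hs hns htr hmin hc hcdet
      hxst hstf h01 hind
  by_cases h02 : (x * f (f x)).trace = 0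
  swap
  · by_cases hind2 : x * f (f x) = f (f x) * x
    swap
    · exact not_pair h2 hno hH hgen hI hs hns htr hmin hc hcdet
        hxst hstff h02 hind2
    obtain ⟨a, ha⟩ := exists_smul_of_commute h2 hx0 hxt (by rw [htf, htf, hxt]) hind2
    have e2 : (R s * R s) * x = a • (x * (R s * R s)) := by
      rw [← smul_mul_assoc, ← ha, hf]
      simp only [conjBy, mul_assoc]
      simp only [← mul_assoc (R s⁻¹) (R s), map_inv_mul_eq, one_mul, mul_one]
    rw [← map_mul] at e2
    rcases sign_of_stable hd e2 with h | h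
    · rw [map_mul, sq_eq, sub_mul, mul_sub, smul_mul_assoc, smul_mul_assoc, mul_smul_comm,
        mul_smul_comm, one_mul, mul_one, sub_left_inj] at h
      have h' : R s * x = x * R s := smul_right_injective _ htr h
      exact hnax 1 (by
        rw [one_smul, hf, conjBy, h', mul_assoc, map_mul_inv_eq, mul_one])
    · have hfx2 : f (f x) = -x := by
        have e3 := congrArg (· * (R s⁻¹ * R s⁻¹)) h
        rw [map_mul] at e3
        simp only [neg_mul, mul_assoc] at e3
        simp only [← mul_assoc (R s) (R s⁻¹), map_mul_inv_eq, one_mul, mul_one] at e3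
        rw [hf]
        simp only [conjBy, mul_assoc]
        exact e3
      set w := x * f x - f x * x with hw
      have hfw : f w = w := by
        have es : f (x * f x - f x * x) = f (x * f x) - f (f x * x) := by
          simp only [hf, conjBy, mul_sub, sub_mul]
        rw [hw, es, hf, conjBy_mul, conjBy_mul, ← hf, hfx2]
        simp only [mul_neg, neg_mul]
        abel
      refine not_axis h2 hno hgen hI hs hns htr hmin hc hcdet (y := w) (sub_ne_zero.2 hind)
        (by rw [Matrix.trace_sub, Matrix.trace_mul_comm, sub_self]) (fun h hh => ?_) (a := 1)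
        (by rw [one_smul, ← conjBy_mul_right s w, ← hf, hfw])
      obtain ⟨b, hb⟩ := hxst h hh
      obtain ⟨b', hb'⟩ := hstf h hh
      refine ⟨b * b', ?_⟩
      have k1 : R h * (x * f x) = (b * b') • (x * f x * R h) := by
        rw [← mul_assoc, hb, smul_mul_assoc, mul_assoc, hb', mul_smul_comm, ← mul_assoc, smul_smul]
      have k2 : R h * (f x * x) = (b * b') • (f x * x * R h) := by
        rw [← mul_assoc, hb', smul_mul_assoc, mul_assoc, hb, mul_smul_comm, ← mul_assoc, smul_smul,
          mul_comm b]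
      rw [mul_sub, sub_mul, smul_sub, k1, k2]
  -- the orthogonal cycle
  have hid := cube_identity (R s) x
  have e3 : (f (f (f x)) - x) * (R s * R s * R s) =
      R s * R s * R s * x - x * (R s * R s * R s) := by
    rw [sub_mul, hf]
    simp only [conjBy, mul_assoc]
    simp only [← mul_assoc (R s⁻¹) (R s), map_inv_mul_eq, one_mul, mul_one]
  have e2 : (f (f x) - f x) * (R s * R s * R s) = R s * R s * x * R s - R s * x * (R s * R s) := by
    rw [sub_mul, hf]
    simp only [conjBy, mul_assoc]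
    simp only [← mul_assoc (R s⁻¹) (R s), map_inv_mul_eq, one_mul]
  rw [← e3, ← e2, ← smul_mul_assoc, ← smul_mul_assoc] at hid
  have hid' : (R s).det • (f (f (f x)) - x) =
      ((R s).trace ^ 2 - (R s).det) • (f (f x) - f x) := by
    rw [← map_mul, ← map_mul] at hid
    have := congrArg (· * R (s * s * s)⁻¹) hid
    simpa only [mul_assoc, map_mul_inv_eq, mul_one] using this
  have e := congrArg (fun m : M₂ => (m * f x).trace) hid'
  simp only [smul_mul_assoc, Matrix.trace_smul, sub_mul, Matrix.trace_sub] at e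
  rw [show f (f (f x)) * f x = f (f (f x) * x) from (conjBy_mul s _ _).symm, htf,
    Matrix.trace_mul_comm (f (f x)) x, h02, h01, sub_zero,
    show f (f x) * f x = f (f x * x) from (conjBy_mul s _ _).symm, htf,
    Matrix.trace_mul_comm (f x) x, h01,
    show f x * f x = f (x * x) from (conjBy_mul s _ _).symm, htf, trace_sq hxt] at e
  simp only [smul_eq_mul, mul_zero, zero_sub, neg_neg] at e
  exact hts (sub_eq_zero.1 ((mul_eq_zero.1 e.symm).resolve_right (mul_ne_zero h2 hd)))

end Inertia

end Fermat.Agent.RootIrred
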