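import Fermat.Agent.RootIrred.Setup
import Fermat.Agent.EC.Reducible.IntegralPoint

/-!
# Inertia at `p` when the image has no transvection

The image of inertia is commutative and contains an element of projective order at least four.
-/

set_option autoImplicit false

noncomputable section

open WeierstrassCurve WeierstrassCurve.Affine.Point
open scoped WeierstrassCurve.Affine Pointwise

namespace Fermat.Agent.RootIrred

open Fermat.Agent Matrix

local notation "Qbar" => AlgebraicClosure ℚ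
local notation "ΓQ" => (AlgebraicClosure ℚ ≃ₐ[ℚ] AlgebraicClosure ℚ)

variable {W : WeierstrassCurve ℤ} {p : ℕ} [Fact p.Prime] (hΔ : W.Δ ≠ 0)

/-- No element of the image is a nontrivial unipotent. -/
def NoTransvection : Prop :=
  ∀ g : ΓQ, (mat (p := p) hΔ g - 1) * (mat hΔ g - 1) = 0 → mat (p := p) hΔ g = 1

variable {hΔ}

theorem mat_eq_one_of_away (hno : NoTransvection (p := p) hΔ) (hss : W.IsSemistableModel) {q : ℕ}
    (hq : q.Prime) (hqp : q ≠ p) {A : ValuationSubring Qbar} (hA : A.LiesOverPrime q) {σ : ΓQ}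
    (hσ : σ ∈ A.inertiaSubgroupIn ℚ) : mat (p := p) hΔ σ = 1 :=
  hno σ (mat_unipotent hΔ hss hq hqp hA hσ)

/-- The order of an element of the image is prime to `p`. -/
theorem exists_pow_eq_one (hno : NoTransvection (p := p) hΔ) (c : ΓQ) :
    ∃ n : ℕ, ¬ p ∣ n ∧ mat (p := p) hΔ c ^ n = 1 := by
  have hp : p.Prime := Fact.out
  have : NeZero p := ⟨hp.ne_zero⟩
  have hu : IsUnit (mat (p := p) hΔ c) := (Group.isUnit c).map (mat (p := p) hΔ)
  obtain ⟨u, hu'⟩ := hu
  set n := orderOf u with hn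
  have hn0 : 0 < n := orderOf_pos u
  refine ⟨n, fun hdvd => ?_, by rw [← hu', ← Units.val_pow_eq_pow_val, pow_orderOf_eq_one,
    Units.val_one]⟩
  obtain ⟨m, hm⟩ := hdvd
  have hm0 : 0 < m := by
    rcases Nat.eq_zero_or_pos m with h | h
    · rw [h, mul_zero] at hm; omega
    · exact h
  have hg : mat (p := p) hΔ (c ^ m) ^ p = 1 := by
    rw [map_pow, ← pow_mul, mul_comm m, ← hm, ← hu', ← Units.val_pow_eq_pow_val, hn,
      pow_orderOf_eq_one, Units.val_one]
  have hnil : (mat (p := p) hΔ (c ^ m) - 1) ^ p = 0 := by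
    rw [sub_pow_char_of_commute _ (Commute.one_right _), hg, one_pow, sub_self]
  have h1 := hno _ (sq_eq_zero_of_pow_eq_zero hnil)
  rw [map_pow, ← hu', ← Units.val_pow_eq_pow_val, Units.val_eq_one] at h1
  have h2 := Nat.le_of_dvd hm0 (orderOf_dvd_of_pow_eq_one h1)
  rw [← hn, hm] at h2
  nlinarith [hp.two_le]

/-- The image of inertia at `p` is commutative. -/
theorem inertia_comm (hno : NoTransvection (p := p) hΔ) {A : ValuationSubring Qbar}
    (hA : A.LiesOverPrime p) {σ τ : ΓQ} (hσ : σ ∈ A.inertiaSubgroupIn ℚ)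
    (hτ : τ ∈ A.inertiaSubgroupIn ℚ) :
    mat (p := p) hΔ σ * mat hΔ τ = mat hΔ τ * mat hΔ σ := by
  set c := σ * τ * σ⁻¹ * τ⁻¹ with hc
  obtain ⟨n, hn, hcn⟩ := exists_pow_eq_one hno c
  rw [← map_pow] at hcn
  have hfix : mat (p := p) hΔ c = 1 := (mat_eq_one_iff hΔ c).2 fun P => by
    have h1 := (mat_eq_one_iff hΔ (c ^ n)).1 hcn P
    apply Subtype.ext
    have h2 : (c ^ n) • (P : ((W.map (Int.castRingHom ℚ))⁄Qbar).Point) = P :=
      congrArg Subtype.val h1
    show c • (P : ((W.map (Int.castRingHom ℚ))⁄Qbar).Point) = P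
    rcases hP : (P : ((W.map (Int.castRingHom ℚ))⁄Qbar).Point) with _ | ⟨x, y, hxy⟩
    · rfl
    · rw [hP] at h2
      obtain ⟨hx, hy⟩ := Affine.Point.some.inj h2
      show Affine.Point.some (c x) (c y) _ = Affine.Point.some x y hxy
      congr 1
      · exact commutator_apply_eq Fact.out hA hσ hτ hn hx
      · exact commutator_apply_eq Fact.out hA hσ hτ hn hy
  calc mat (p := p) hΔ σ * mat hΔ τ = mat hΔ (c * (τ * σ)) := by
        rw [← map_mul]; congr 1; rw [hc]; group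
    _ = mat hΔ τ * mat hΔ σ := by rw [map_mul, hfix, one_mul, map_mul]

/-- Inertia at one place over `p` generates normally. -/
theorem eq_top_of_inertia_le (hno : NoTransvection (p := p) hΔ) (hss : W.IsSemistableModel)
    {A₀ : ValuationSubring Qbar} (hA₀ : A₀.LiesOverPrime p) (K : Subgroup ΓQ) (hK : K.Normal)
    (hker : ∀ g, mat (p := p) hΔ g = 1 → g ∈ K) (hI : A₀.inertiaSubgroupIn ℚ ≤ K) : K = ⊤ := by
  obtain ⟨L, hL, hLfix⟩ := exists_level (p := p) hΔ
  refine EC.Reducible.eq_top_of_inertia_le_of_open K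
    ⟨L, hL, fun σ hσ => hker σ (hLfix σ hσ)⟩ fun q hq A hA σ hσ => ?_
  by_cases hqp : q = p
  · subst hqp
    obtain ⟨τ, hτ⟩ := EC.Reducible.exists_conj_inertia hq hA hA₀
    have h := hK.conj_mem _ (hI (hτ σ hσ)) τ⁻¹
    simpa [mul_assoc] using h
  · exact hker σ (mat_eq_one_of_away hno hss hq hqp hA hσ)

/-- Inertia at `p` takes every value of the determinant. -/
theorem exists_inertia_det_eq (hno : NoTransvection (p := p) hΔ) (hss : W.IsSemistableModel)
    {A₀ : ValuationSubring Qbar} (hA₀ : A₀.LiesOverPrime p) (g : ΓQ) :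
    ∃ τ ∈ A₀.inertiaSubgroupIn ℚ, (mat (p := p) hΔ τ).det = (mat (p := p) hΔ g).det := by
  let K : Subgroup ΓQ :=
    { carrier := {g | ∃ τ ∈ A₀.inertiaSubgroupIn ℚ,
        (mat (p := p) hΔ τ).det = (mat (p := p) hΔ g).det}
      one_mem' := ⟨1, one_mem _, rfl⟩
      mul_mem' := by
        rintro a b ⟨σ, hσ, e⟩ ⟨τ, hτ, e'⟩
        exact ⟨σ * τ, mul_mem hσ hτ, by rw [map_mul, map_mul, det_mul, det_mul, e, e']⟩
      inv_mem' := by
        rintro a ⟨σ, hσ, e⟩
        refine ⟨σ⁻¹, inv_mem hσ, mul_left_cancel₀ (det_ne_zero (R := mat (p := p) hΔ) σ) ?_⟩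
        rw [← det_mul, map_mul_inv_eq, e, ← det_mul, map_mul_inv_eq] }
  have hK : K.Normal := ⟨fun a ⟨σ, hσ, e⟩ b => ⟨σ, hσ, by
    rw [e, map_mul, map_mul, det_mul, det_mul, mul_right_comm, ← det_mul (mat hΔ b),
      map_mul_inv_eq, Matrix.det_one, one_mul]⟩⟩
  have htop := eq_top_of_inertia_le hno hss hA₀ K hK
    (fun g hg => ⟨1, one_mem _, by rw [hg, map_one]⟩) fun τ hτ => ⟨τ, hτ, rfl⟩
  exact show g ∈ K from htop ▸ Subgroup.mem_top g

/-- In the supersingular case inertia moves a nonzero vector to every vector up to sign. -/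
theorem exists_mulVec_eq (hp2 : p ≠ 2) {A : ValuationSubring Qbar} (hA : A.LiesOverPrime p)
    (htop : EC.Reducible.infSub W A p = ⊤) (v w : Fin 2 → ZMod p) (hv : v ≠ 0) (hw : w ≠ 0) :
    ∃ τ ∈ A.inertiaSubgroupIn ℚ, mat (p := p) hΔ τ *ᵥ v = w ∨ mat (p := p) hΔ τ *ᵥ v = -w := by
  classical
  have hp : p.Prime := Fact.out
  have hodd : Odd p := hp.odd_of_ne_two hp2
  have := EC.Torsion.isElliptic_baseChange_map W hΔ Qbar
  let F := W.preΨ' p
  have hF := EC.Reducible.preΨ'_baseChange_int W p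
  have hpZ : ((p : ℕ) : ℤ) ≠ 0 := Int.natCast_ne_zero.mpr hp.ne_zero
  have hlead : F.leadingCoeff = (p : ℤ) := by
    rw [WeierstrassCurve.leadingCoeff_preΨ' W hpZ, if_neg (Nat.not_even_iff_odd.mpr hodd)]
  set G := F.map (Int.castRingHom Qbar) with hG
  have hGne : G ≠ 0 := by
    rw [hG, Polynomial.map_ne_zero_iff (RingHom.injective_int _)]
    intro h
    rw [h, Polynomial.leadingCoeff_zero] at hlead
    exact hpZ hlead.symm
  have hroot : ∀ P : Tors W p, P ≠ 0 → ∃ (x y : Qbar)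
      (h : ((W.map (Int.castRingHom ℚ))⁄Qbar).toAffine.Nonsingular x y),
      (P : ((W.map (Int.castRingHom ℚ))⁄Qbar).Point) = .some x y h ∧ G.IsRoot x := by
    intro P hP
    rcases hP' : (P : ((W.map (Int.castRingHom ℚ))⁄Qbar).Point) with _ | ⟨x, y, h⟩
    · exact absurd (Subtype.ext hP') hP
    refine ⟨x, y, h, rfl, ?_⟩
    have hz : p • Affine.Point.some x y h = 0 := by
      rw [← hP', ← natCast_zsmul]; exact P.2
    rw [← hF]
    exact (EC.Torsion.nsmul_some_eq_zero_iff_of_odd hodd h).mp hz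
  have hrootA : ∀ x : Qbar, G.IsRoot x → x ∉ A := by
    intro x hx
    rw [← hF] at hx
    obtain ⟨y, h, hP⟩ :=
      EC.Torsion.exists_preΨ'_root_eq (W.map (Int.castRingHom ℚ)) Qbar hodd x hx
    have hmem : (⟨_, hP⟩ : Tors W p) ∈ EC.Reducible.infSub W A p := htop ▸ Submodule.mem_top
    rw [EC.Reducible.mem_infSub] at hmem
    rcases hmem with ⟨hx', -⟩ | ⟨x₀, y₀, h₀, -, -, h0⟩
    · exact hx'
    · exact absurd h0.symm (Affine.Point.some_ne_zero h₀)
  obtain ⟨P, rfl⟩ := (vec (p := p) hΔ).surjective v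
  obtain ⟨Q, rfl⟩ := (vec (p := p) hΔ).surjective w
  have hP : P ≠ 0 := fun h => hv (by rw [h, _root_.map_zero])
  have hQ : Q ≠ 0 := fun h => hw (by rw [h, _root_.map_zero])
  obtain ⟨x, y, hxy, hPeq, hxroot⟩ := hroot P hP
  obtain ⟨x', y', hxy', hQeq, hxroot'⟩ := hroot Q hQ
  set S : Finset Qbar :=
    G.roots.toFinset.filter fun z => ∃ τ ∈ A.inertiaSubgroupIn ℚ, τ x = z with hSdef
  have hmemS : ∀ z, z ∈ S ↔ G.IsRoot z ∧ ∃ τ ∈ A.inertiaSubgroupIn ℚ, τ x = z := fun z => by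
    rw [hSdef, Finset.mem_filter, Multiset.mem_toFinset, Polynomial.mem_roots hGne]
  have himg : ∀ σ ∈ A.inertiaSubgroupIn ℚ, S.image σ = S := by
    intro σ hσ
    refine Finset.eq_of_subset_of_card_le (fun z hz => ?_)
      (by rw [Finset.card_image_of_injective _ σ.injective])
    obtain ⟨w', hw', rfl⟩ := Finset.mem_image.mp hz
    obtain ⟨hr, τ, hτ, rfl⟩ := (hmemS w').1 hw'
    refine (hmemS _).2 ⟨?_, σ * τ, mul_mem hσ hτ, rfl⟩
    have e : G.map (σ : Qbar →+* Qbar) = G := by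
      rw [hG, Polynomial.map_map]
      congr 1
      exact Subsingleton.elim _ _
    rw [← e]
    exact Polynomial.IsRoot.map hr
  have hall : G.roots.toFinset ⊆ S := by
    by_contra hsub
    have hlt : S.card < G.roots.toFinset.card :=
      Finset.card_lt_card (Finset.ssubset_iff_subset_ne.2 ⟨Finset.filter_subset _ _, fun he =>
        hsub he.ge⟩)
    refine false_of_inertia_stable_subset hp hA F hlead hrootA S
      ⟨x, (hmemS x).2 ⟨hxroot, 1, one_mem _, rfl⟩⟩ (hlt.trans_le ?_)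
      (fun z hz => ((hmemS z).1 hz).1) fun σ hσ => ?_
    · exact (Multiset.toFinset_card_le _).trans ((Polynomial.card_roots' _).trans
        (Polynomial.natDegree_map_le))
    · conv_rhs => rw [← himg σ hσ]
      rw [map_prod, Finset.prod_image fun a _ b _ hab => σ.injective hab]
      rfl
  obtain ⟨-, τ, hτ, hτx⟩ := (hmemS x').1
    (hall (Multiset.mem_toFinset.2 ((Polynomial.mem_roots hGne).2 hxroot')))
  refine ⟨τ, hτ, ?_⟩
  rw [mat_mulVec, ← map_neg]
  have hcase : τ • P = Q ∨ τ • P = -Q := by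
    have hτP : ((τ • P : Tors W p) : ((W.map (Int.castRingHom ℚ))⁄Qbar).Point) =
        τ • (Affine.Point.some x y hxy : ((W.map (Int.castRingHom ℚ))⁄Qbar).Point) := by
      rw [← hPeq]; rfl
    rcases hτP' : ((τ • P : Tors W p) : ((W.map (Int.castRingHom ℚ))⁄Qbar).Point) with
      _ | ⟨a, b, hab⟩
    · rw [hτP'] at hτP
      exact absurd hτP.symm (Affine.Point.some_ne_zero _)
    rw [hτP'] at hτP
    obtain ⟨ha, -⟩ := Affine.Point.some.inj hτP
    have hax : a = x' := ha.trans hτx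
    subst hax
    rcases Affine.Y_eq_of_X_eq hab.1 hxy'.1 rfl with hb | hb
    · left
      subst hb
      exact Subtype.ext (hτP'.trans hQeq.symm)
    · right
      subst hb
      refine Subtype.ext (hτP'.trans ?_)
      rw [NegMemClass.coe_neg, hQeq, Affine.Point.neg_some]
  rcases hcase with h | h <;> rw [h]
  exacts [Or.inl rfl, Or.inr rfl]

/-- A suitable element from transitivity. -/
theorem exists_good_of_transitive {k : Type*} [Field k] {Γ : Type*} [Group Γ]
    {R : Γ →* Matrix (Fin 2) (Fin 2) k} {I : Subgroup Γ} (h2 : (2 : k) ≠ 0) (h3 : (3 : k) ≠ 0)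
    (hI : ∀ σ ∈ I, ∀ τ ∈ I, R σ * R τ = R τ * R σ)
    (htrans : ∀ v w : Fin 2 → k, v ≠ 0 → w ≠ 0 → ∃ τ ∈ I, R τ *ᵥ v = w ∨ R τ *ᵥ v = -w) :
    ∃ s ∈ I, (∀ a : k, R s ≠ a • 1) ∧ (R s).trace ≠ 0 ∧ (R s).trace ^ 2 ≠ (R s).det := by
  let e₀ : Fin 2 → k := Pi.single 0 1
  let e₁ : Fin 2 → k := Pi.single 1 1
  have he₀ : e₀ ≠ 0 := Pi.single_ne_zero_iff.2 one_ne_zero
  have he₁ : e₁ ≠ 0 := Pi.single_ne_zero_iff.2 one_ne_zero
  obtain ⟨τ₁, hτ₁, hw⟩ := htrans e₀ e₁ he₀ he₁
  have hne : ∀ a : k, R τ₁ ≠ a • 1 := fun a ha => by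
    rw [ha, Matrix.smul_mulVec, one_mulVec] at hw
    rcases hw with h | h <;>
    · have := congrFun h 1
      simp [e₀, e₁] at this
  set z := R τ₁ - ((R τ₁).trace / 2) • (1 : Matrix (Fin 2) (Fin 2) k) with hz
  have hzt : z.trace = 0 := by
    rw [hz, trace_sub, trace_smul, trace_one]
    simp
    field_simp
    ring
  have hzne : ∀ a : k, z ≠ a • 1 := fun a ha => hne (a + (R τ₁).trace / 2) (by
    rw [add_smul, ← ha, hz, sub_add_cancel])
  have hzI : ∀ τ ∈ I, z * R τ = R τ * z := fun τ hτ => by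
    rw [hz, sub_mul, mul_sub, hI τ₁ hτ₁ τ hτ, smul_mul_assoc, mul_smul_comm, one_mul, mul_one]
  have hsp : ∀ τ ∈ I, ∃ a b : k, R τ = a • 1 + b • z := fun τ hτ =>
    exists_of_commute hzne (hzI τ hτ)
  have hind : ∀ μ : k, z *ᵥ e₀ ≠ μ • e₀ := fun μ hμ => by
    obtain ⟨a, b, hab⟩ := hsp τ₁ hτ₁
    rw [hab, add_mulVec, smul_mulVec, smul_mulVec, one_mulVec, hμ, smul_smul, ← add_smul] at hw
    rcases hw with h | h <;>
    · have := congrFun h 1
      simp [e₀, e₁] at this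
  obtain ⟨α, hα0, hα⟩ : ∃ α : k, α ≠ 0 ∧ 3 * α ^ 2 - z.det ≠ 0 := by
    by_contra hcon
    push Not at hcon
    have e1 := hcon 1 one_ne_zero
    have e2 := hcon 2 h2
    exact mul_ne_zero h3 h3 (by linear_combination e2 - e1)
  have hw0 : z *ᵥ e₀ + α • e₀ ≠ 0 := fun h => hind (-α) (by
    rw [neg_smul, eq_neg_of_add_eq_zero_left h])
  obtain ⟨s, hs, hsw⟩ := htrans e₀ _ he₀ hw0
  obtain ⟨a, b, hab⟩ := hsp s hs
  obtain ⟨ε, hε, hεw⟩ : ∃ ε : k, (ε = 1 ∨ ε = -1) ∧
      R s *ᵥ e₀ = ε • (z *ᵥ e₀ + α • e₀) := by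
    rcases hsw with h | h
    · exact ⟨1, Or.inl rfl, by rw [h, one_smul]⟩
    · exact ⟨-1, Or.inr rfl, by rw [h, neg_smul, one_smul]⟩
  rw [hab, add_mulVec, smul_mulVec, smul_mulVec, one_mulVec, smul_add, smul_smul] at hεw
  obtain ⟨ha, hb⟩ := eq_zero_of_indep he₀ hind (α := a - ε * α) (β := b - ε) (by
    rw [sub_smul, sub_smul]
    linear_combination (norm := module) hεw)
  rw [sub_eq_zero] at ha hb
  subst ha hb
  have hε0 : b ≠ 0 := by rcases hε with rfl | rfl <;> simp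
  have hε2 : b ^ 2 = 1 := by rcases hε with rfl | rfl <;> ring
  have ht : (R s).trace = 2 * (b * α) := by
    rw [hab, trace_add, trace_smul, trace_smul, hzt, trace_one]
    simp
    ring
  have hd : (R s).det = (b * α) ^ 2 + b ^ 2 * z.det := by
    rw [hab]
    have h11 := trace0_entry hzt
    simp [Matrix.det_fin_two, h11]
    ring
  refine ⟨s, hs, fun c hc => ?_, ?_, ?_⟩
  · apply hzne ((c - b * α) / b)
    rw [div_eq_inv_mul, mul_smul, sub_smul, ← hc, hab, add_sub_cancel_left, inv_smul_smul₀ hε0]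
  · rw [ht]
    exact mul_ne_zero h2 (mul_ne_zero hε0 hα0)
  · rw [ht, hd]
    intro h
    exact hα (by linear_combination h - (3 * α ^ 2 - z.det) * hε2)

/-- **The element of inertia at `p`.** -/
theorem exists_good (hno : NoTransvection (p := p) hΔ) (hss : W.IsSemistableModel) (hp5 : 5 ≤ p)
    {A : ValuationSubring Qbar} (hA : A.LiesOverPrime p) :
    ∃ s ∈ A.inertiaSubgroupIn ℚ, (∀ a : ZMod p, mat (p := p) hΔ s ≠ a • 1) ∧
      (mat (p := p) hΔ s).trace ≠ 0 ∧
      (mat (p := p) hΔ s).trace ^ 2 ≠ (mat (p := p) hΔ s).det := by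
  have hp : p.Prime := Fact.out
  have hne : ∀ n : ℕ, 0 < n → n < p → (n : ZMod p) ≠ 0 := fun n h0 h1 e => by
    have := Nat.le_of_dvd h0 ((ZMod.natCast_eq_zero_iff n p).1 e)
    omega
  have h2 : (2 : ZMod p) ≠ 0 := by exact_mod_cast hne 2 (by norm_num) (by omega)
  have h3 : (3 : ZMod p) ≠ 0 := by exact_mod_cast hne 3 (by norm_num) (by omega)
  by_cases htop : EC.Reducible.infSub W A p = ⊤
  · exact exists_good_of_transitive (R := mat (p := p) hΔ) h2 h3
      (fun σ hσ τ hτ => inertia_comm hno hA hσ hτ) (exists_mulVec_eq (by omega) hA htop)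
  -- some point does not reduce to infinity
  obtain ⟨u, hu⟩ := (isCyclic_iff_exists_zpowers_eq_top.1
    (inferInstance : IsCyclic (ZMod p)ˣ))
  obtain ⟨g, hg⟩ := exists_det_eq (p := p) hΔ u
  obtain ⟨s, hs, hsd⟩ := exists_inertia_det_eq hno hss hA g
  rw [hg] at hsd
  have hd1 : (mat (p := p) hΔ s - 1).det = 0 := by
    by_contra hd
    refine htop (eq_top_iff.2 fun Q _ => ?_)
    obtain ⟨x, hx⟩ := (Matrix.mulVec_surjective_iff_isUnit.2
      ((Matrix.isUnit_iff_isUnit_det _).2 (isUnit_iff_ne_zero.2 hd))) (vec hΔ Q)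
    obtain ⟨P, rfl⟩ := (vec (p := p) hΔ).surjective x
    rw [sub_mulVec, one_mulVec, mat_mulVec, ← map_sub] at hx
    rw [← (vec hΔ).injective hx, EC.Reducible.mem_infSub]
    have hz : W.InZeroComponentAt A
        (s • (P : ((W.map (Int.castRingHom ℚ))⁄Qbar).Point) -
          (P : ((W.map (Int.castRingHom ℚ))⁄Qbar).Point)) := by
      by_cases hpΔ : (p : ℤ) ∣ W.Δ
      · exact (Multiplicative.MultAt.mk hp hA hpΔ (hss p hp hpΔ) hΔ).smul_sub_inZeroComponentAt hs P
      · exact EC.Reducible.inZeroComponentAt_of_good hp hA hpΔ _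
    by_cases hpΔ : (p : ℤ) ∣ W.Δ
    · refine EC.Reducible.redTo_zero_of_nsmul_residueChar
        (Multiplicative.MultAt.mk hp hA hpΔ (hss p hp hpΔ) hΔ) hz ?_
      rw [← natCast_zsmul]
      exact (s • P - P).2
    · exact EC.Reducible.redTo_smul_sub_self hs (EC.Reducible.inZeroComponentAt_of_good hp hA hpΔ _)
  rw [det_sub_one, hsd] at hd1
  have htr : (mat (p := p) hΔ s).trace = (u : ZMod p) + 1 := by linear_combination -hd1
  have hord : orderOf (u : ZMod p) = p - 1 := by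
    rw [orderOf_units, ← Nat.card_zpowers, hu, Subgroup.card_top, Nat.card_eq_fintype_card,
      ZMod.card_units]
  have hpow : ∀ n : ℕ, 0 < n → n < p - 1 → (u : ZMod p) ^ n ≠ 1 := fun n h0 h1 e => by
    have := Nat.le_of_dvd h0 (orderOf_dvd_of_pow_eq_one e)
    omega
  refine ⟨s, hs, fun a ha => ?_, fun h => ?_, fun h => ?_⟩
  · apply hpow 1 one_pos (by omega)
    rw [pow_one]
    have e1 : (a - 1) * (a - 1) = 0 := by
      rw [ha, trace_smul, trace_one] at htr
      rw [ha, det_smul, Fintype.card_fin, det_one, mul_one] at hsd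
      simp at htr
      linear_combination -htr + hsd
    rw [← hsd, ha, sub_eq_zero.1 (mul_self_eq_zero.1 e1), one_smul, det_one]
  · apply hpow 2 two_pos (by omega)
    rw [htr] at h
    linear_combination ((u : ZMod p) - 1) * h
  · apply hpow 3 three_pos (by omega)
    rw [htr, hsd] at h
    linear_combination ((u : ZMod p) - 1) * h

end Fermat.Agent.RootIrred
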