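import Mathlib

/-!
# Identities for `2 × 2` matrices
-/

set_option autoImplicit false

namespace Fermat.Agent.RootIrred

open Matrix

variable {k : Type*} [Field k]

local notation "M₂" => Matrix (Fin 2) (Fin 2) k

theorem trace0_entry {x : M₂} (hx : x.trace = 0) : x 1 1 = -x 0 0 := by
  rw [Matrix.trace_fin_two] at hx
  linear_combination hx

theorem sq_eq (m : M₂) : m * m = m.trace • m - m.det • (1 : M₂) := by
  ext i j
  fin_cases i <;> fin_cases j <;>
    simp [Matrix.mul_apply, Fin.sum_univ_two, Matrix.trace_fin_two, Matrix.det_fin_two] <;> ring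

theorem det_sub_one (m : M₂) : (m - 1).det = m.det - m.trace + 1 := by
  simp [Matrix.trace_fin_two, Matrix.det_fin_two]
  ring

theorem mul_add_mul_comm {m y : M₂} (hy : y.trace = 0) :
    m * y + y * m = m.trace • y + (m * y).trace • (1 : M₂) := by
  have h := trace0_entry hy
  ext i j
  fin_cases i <;> fin_cases j <;>
    simp [Matrix.mul_apply, Fin.sum_univ_two, Matrix.trace_fin_two, h] <;> ring

theorem trace_sq {y : M₂} (hy : y.trace = 0) : (y * y).trace = -(2 * y.det) := by
  rw [sq_eq, hy, zero_smul, zero_sub, Matrix.trace_neg, Matrix.trace_smul, Matrix.trace_one]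
  simp
  ring

/-- An element anticommuting with a matrix of nonzero trace vanishes. -/
theorem eq_zero_of_anticomm (h2 : (2 : k) ≠ 0) {m y : M₂} (hy : y.trace = 0)
    (ht : m.trace ≠ 0) (h : m * y = -(y * m)) : y = 0 := by
  have e := mul_add_mul_comm (m := m) hy
  rw [show m * y + y * m = 0 by rw [h, neg_add_cancel]] at e
  have h1 := congrArg Matrix.trace e
  rw [Matrix.trace_zero, Matrix.trace_add, Matrix.trace_smul, hy, smul_zero, zero_add,
    Matrix.trace_smul, Matrix.trace_one] at h1
  have hz : (m * y).trace = 0 := by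
    have : (m * y).trace * 2 = 0 := by simpa using h1.symm
    exact (mul_eq_zero.1 this).resolve_right h2
  rw [hz, zero_smul, add_zero] at e
  exact (smul_eq_zero.1 e.symm).resolve_left ht

/-- The centraliser of a matrix which is not scalar. -/
theorem exists_of_commute {m x : M₂} (hm : ∀ a : k, m ≠ a • 1) (h : m * x = x * m) :
    ∃ α β : k, x = α • 1 + β • m := by
  have e00 := congrFun (congrFun h 0) 0
  have e01 := congrFun (congrFun h 0) 1
  have e10 := congrFun (congrFun h 1) 0
  simp [Matrix.mul_apply, Fin.sum_univ_two] at e00 e01 e10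
  by_cases hb : m 0 1 = 0
  · by_cases hc : m 1 0 = 0
    · have hne : m 0 0 - m 1 1 ≠ 0 := fun h0 => hm (m 0 0) (by
        ext i j
        fin_cases i <;> fin_cases j <;> simp [hb, hc, ← sub_eq_zero.1 h0])
      have h01 : x 0 1 = 0 :=
        (mul_eq_zero.1 (show (m 0 0 - m 1 1) * x 0 1 = 0 by
          rw [hb] at e01; linear_combination e01)).resolve_left hne
      have h10 : x 1 0 = 0 :=
        (mul_eq_zero.1 (show (m 0 0 - m 1 1) * x 1 0 = 0 by
          rw [hc] at e10; linear_combination -e10)).resolve_left hne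
      refine ⟨(x 1 1 * m 0 0 - x 0 0 * m 1 1) / (m 0 0 - m 1 1),
        (x 0 0 - x 1 1) / (m 0 0 - m 1 1), ?_⟩
      ext i j
      fin_cases i <;> fin_cases j <;> simp [hb, hc, h01, h10] <;> field_simp <;> ring
    · refine ⟨x 0 0 - x 1 0 / m 1 0 * m 0 0, x 1 0 / m 1 0, ?_⟩
      rw [hb] at e00
      have h01 : x 0 1 = 0 := (mul_eq_zero.1 (show x 0 1 * m 1 0 = 0 by
        linear_combination -e00)).resolve_right hc
      ext i j
      fin_cases i <;> fin_cases j <;> simp [hb, h01] <;> field_simp
      linear_combination -e10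
  · refine ⟨x 0 0 - x 0 1 / m 0 1 * m 0 0, x 0 1 / m 0 1, ?_⟩
    ext i j
    fin_cases i <;> fin_cases j <;> simp <;> field_simp <;>
      first
        | ring1
        | linear_combination e00
        | linear_combination -e00
        | linear_combination e01

/-- Trace zero elements commuting with each other are proportional. -/
theorem exists_smul_of_commute (h2 : (2 : k) ≠ 0) {x y : M₂} (hx : x ≠ 0) (htx : x.trace = 0)
    (hty : y.trace = 0) (h : x * y = y * x) : ∃ c : k, y = c • x := by
  obtain ⟨α, β, rfl⟩ := exists_of_commute (m := x) (fun a ha => hx (by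
    rw [ha, Matrix.trace_smul, Matrix.trace_one] at htx
    have : a * 2 = 0 := by simpa using htx
    rw [ha, (mul_eq_zero.1 this).resolve_right h2, zero_smul])) h
  rw [Matrix.trace_add, Matrix.trace_smul, Matrix.trace_smul, htx, smul_zero, add_zero,
    Matrix.trace_one] at hty
  have : α * 2 = 0 := by simpa using hty
  exact ⟨β, by rw [(mul_eq_zero.1 this).resolve_right h2, zero_smul, zero_add]⟩

/-- Two vectors killed by a nonzero matrix are proportional. -/
theorem exists_smul_of_mulVec_eq_zero {n : M₂} {v w : Fin 2 → k} (hn : n ≠ 0) (hv : v ≠ 0)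
    (hnv : n *ᵥ v = 0) (hnw : n *ᵥ w = 0) : ∃ μ : k, w = μ • v := by
  have hd : v 0 * w 1 - v 1 * w 0 = 0 := by
    by_contra hd
    have h0 := congrFun hnv 0
    have h1 := congrFun hnv 1
    have g0 := congrFun hnw 0
    have g1 := congrFun hnw 1
    simp [Matrix.mulVec, dotProduct, Fin.sum_univ_two] at h0 h1 g0 g1
    refine hn ?_
    have key : ∀ a b : k, a * v 0 + b * v 1 = 0 → a * w 0 + b * w 1 = 0 → a = 0 ∧ b = 0 := by
      intro a b ha hb
      exact ⟨(mul_eq_zero.1 (show a * (v 0 * w 1 - v 1 * w 0) = 0 by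
          linear_combination w 1 * ha - v 1 * hb)).resolve_right hd,
        (mul_eq_zero.1 (show b * (v 0 * w 1 - v 1 * w 0) = 0 by
          linear_combination v 0 * hb - w 0 * ha)).resolve_right hd⟩
    ext i j
    fin_cases i <;> fin_cases j <;> simp [key _ _ h0 g0, key _ _ h1 g1]
  by_cases h0 : v 0 = 0
  · have h1 : v 1 ≠ 0 := fun h1 => hv (funext fun i => by fin_cases i <;> simp [h0, h1])
    refine ⟨w 1 / v 1, funext fun i => ?_⟩
    fin_cases i <;> simp
    · have hw0 : w 0 = 0 := by
        have := hd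
        rw [h0] at this
        exact (mul_eq_zero.1 (show v 1 * w 0 = 0 by linear_combination -this)).resolve_left h1
      rw [h0, hw0]
      simp
    · field_simp
  · refine ⟨w 0 / v 0, funext fun i => ?_⟩
    fin_cases i <;> simp
    · field_simp
    · field_simp
      linear_combination hd

theorem eq_zero_of_indep {v w : Fin 2 → k} (hv : v ≠ 0) (hw : ∀ μ : k, w ≠ μ • v) {α β : k}
    (h : α • v + β • w = 0) : α = 0 ∧ β = 0 := by
  have hβ : β = 0 := by
    by_contra hβ
    refine hw (-α / β) ?_
    have e : β • w = -α • v := by rw [neg_smul, eq_neg_iff_add_eq_zero, add_comm, h]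
    rw [div_eq_inv_mul, mul_smul, ← e, inv_smul_smul₀ hβ]
  rw [hβ, zero_smul, add_zero] at h
  exact ⟨(smul_eq_zero.1 h).resolve_right hv, hβ⟩

/-- Matrices agreeing on two independent vectors are equal. -/
theorem eq_of_mulVec_eq {m m' : M₂} {v w : Fin 2 → k} (hv : v ≠ 0) (hw : ∀ μ : k, w ≠ μ • v)
    (h1 : m *ᵥ v = m' *ᵥ v) (h2 : m *ᵥ w = m' *ᵥ w) : m = m' := by
  by_contra hne
  obtain ⟨μ, hμ⟩ := exists_smul_of_mulVec_eq_zero (n := m - m') (sub_ne_zero.2 hne) hv
    (by rw [Matrix.sub_mulVec, h1, sub_self]) (w := w) (by rw [Matrix.sub_mulVec, h2, sub_self])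
  exact hw μ hμ

/-- A nilpotent matrix squares to zero. -/
theorem sq_eq_zero_of_pow_eq_zero {n : M₂} {m : ℕ} (hm : n ^ m = 0) : n * n = 0 := by
  have hd : n.det = 0 := by
    rcases Nat.eq_zero_or_pos m with rfl | hpos
    · rw [pow_zero] at hm
      have := congrArg Matrix.det hm
      simp at this
    · have := congrArg Matrix.det hm
      rw [Matrix.det_pow, Matrix.det_zero] at this
      exact eq_zero_of_pow_eq_zero this
  have hsq := sq_eq n
  rw [hd, zero_smul, sub_zero] at hsq
  have hpow : ∀ i : ℕ, n ^ (i + 1) = n.trace ^ i • n := by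
    intro i
    induction i with
    | zero => simp
    | succ i ih => rw [pow_succ, ih, smul_mul_assoc, hsq, smul_smul, ← pow_succ]
  have h1 : n.trace ^ m • n = 0 := by rw [← hpow, pow_succ, hm, zero_mul]
  rw [hsq]
  rcases smul_eq_zero.1 h1 with h | h
  · rw [eq_zero_of_pow_eq_zero h, zero_smul]
  · rw [h, smul_zero]

/-- `(m - 1) ^ 2 = 0` determines trace and determinant. -/
theorem trace_det_of_unipotent {m : M₂} (h : (m - 1) * (m - 1) = 0) :
    m.trace = 2 ∧ m.det = 1 := by
  have hd : (m - 1).det = 0 := by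
    have := congrArg Matrix.det h
    rw [Matrix.det_mul, Matrix.det_zero] at this
    exact mul_self_eq_zero.1 this
  have ht : (m - 1).trace = 0 := by
    have h2 := sq_eq (m - 1)
    rw [h, hd, zero_smul, sub_zero] at h2
    rcases smul_eq_zero.1 h2.symm with h3 | h3
    · exact h3
    · rw [h3, Matrix.trace_zero]
  have ht' : m.trace = 2 := by
    rw [Matrix.trace_sub, Matrix.trace_one, sub_eq_zero] at ht
    simpa using ht
  refine ⟨ht', ?_⟩
  rw [det_sub_one, ht'] at hd
  linear_combination hd

theorem cube_identity (s x : M₂) :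
    s.det • (s * s * s * x - x * (s * s * s)) =
      (s.trace ^ 2 - s.det) • (s * s * x * s - s * x * (s * s)) := by
  have e3 : s * s * s = (s.trace ^ 2 - s.det) • s - (s.trace * s.det) • (1 : M₂) := by
    rw [sq_eq, sub_mul, smul_mul_assoc, smul_mul_assoc, one_mul, sq_eq, smul_sub, smul_smul,
      smul_smul, sub_smul, ← sq]
    abel
  rw [e3, sq_eq s]
  simp only [sub_mul, mul_sub, smul_mul_assoc, mul_smul_comm, one_mul, mul_one, smul_sub,
    smul_smul, mul_assoc]
  module

end Fermat.Agent.RootIrred
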